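import Fermat.Agent.RR.AdlDual

/-!
# Riemann–Roch for the canonical divisor of a residue system, from Riemann's inequality
-/

set_option autoImplicit false

namespace Fermat.Agent.RRL.Adl

variable {K F X : Type*} [Field K] [Field F] [Algebra K F]

/-- `2 ℓ(W) = deg W + 2` for the divisor `W` of a residue system, assuming that
`deg D - ℓ(D)` is bounded above (Riemann's theorem). -/
theorem two_mul_finrank_L [Nonempty X] (C : Curve K F X) (W : X →₀ ℤ)
    (R : ResidueSystem C.toPreCurve W)
    (hR : ∃ γ : ℤ, ∀ D : X →₀ ℤ,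
      PreCurve.deg D - (Module.finrank K (C.toPreCurve.L D) : ℤ) ≤ γ) :
    Module.Finite K (C.toPreCurve.L W) ∧
      2 * (Module.finrank K (C.toPreCurve.L W) : ℤ) = PreCurve.deg W + 2 := by
  obtain ⟨m, B₀, hm, hB₀⟩ := exists_max_of_bound C.toPreCurve hR
  refine ⟨C.toPreCurve.finite_L W, ?_⟩
  have h1 := (index_formula C hm hB₀ 0).2
  have h2 := finrank_quot_eq C R hm hB₀ 0
  have h3 := (index_formula C hm hB₀ W).2
  have h4 := finrank_quot_eq C R hm hB₀ W
  rw [h2, sub_zero, C.toPreCurve.finrank_L_zero, deg_zero] at h1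
  rw [h4, sub_self, C.toPreCurve.finrank_L_zero] at h3
  push_cast at h1 h3
  linarith

end Fermat.Agent.RRL.Adl
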