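import Fermat.Agent.RR.Degree

/-!
# Riemann's inequality: `deg D - ℓ(D)` is bounded above
-/

set_option autoImplicit false

open scoped IntermediateField

namespace Fermat.Agent.RRL

namespace Curve

variable {K F X : Type*} [Field K] [Field F] [Algebra K F]

/-- `deg D - ℓ(D)` is monotone in `D`. -/
theorem deg_sub_finrank_mono (C : Curve K F X) {A B : X →₀ ℤ} (h : A ≤ B) :
    PreCurve.deg A - (Module.finrank K (C.toPreCurve.L A) : ℤ)
      ≤ PreCurve.deg B - (Module.finrank K (C.toPreCurve.L B) : ℤ) := by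
  have := C.toPreCurve.finrank_L_le h
  omega

/-- Riemann's theorem (Stichtenoth 1.4.14): `deg D - ℓ(D)` is bounded above. -/
theorem exists_riemann_bound [Nonempty X] (C : Curve K F X) :
    ∃ γ : ℤ, ∀ D : X →₀ ℤ,
      PreCurve.deg D - (Module.finrank K (C.toPreCurve.L D) : ℤ) ≤ γ := by
  classical
  obtain ⟨p⟩ := ‹Nonempty X›
  obtain ⟨x, hx0, hxp⟩ := C.exists_uniformizer p
  have hx : ∀ c : K, x ≠ algebraMap K F c := by
    intro c h
    by_cases hc : c = 0
    · rw [hc, map_zero] at h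
      exact hx0 h
    · rw [h, C.ord_algebraMap p hc] at hxp
      exact zero_ne_one hxp
  have hfin := C.toPreCurve.finite_adjoin hx
  set B : X →₀ ℤ := C.toPreCurve.poleDiv x with hB
  set n : ℕ := Module.finrank K⟮x⟯ F with hn
  have hnB : (n : ℤ) = PreCurve.deg B := C.finrank_eq_deg_poleDiv hx
  have hnpos : 0 < PreCurve.deg B := C.toPreCurve.deg_poleDiv_pos hx
  have hB0 : 0 ≤ B := C.toPreCurve.poleDiv_nonneg x
  obtain ⟨C₀, hC₀, hl⟩ := C.toPreCurve.exists_le_finrank_L_smul_poleDiv hx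
    (Module.finBasis K⟮x⟯ F) (Module.finBasis K⟮x⟯ F).linearIndependent
  have hdegl : ∀ l : ℕ, PreCurve.deg (l • B) = l * PreCurve.deg B := by
    intro l
    induction l with
    | zero => simp [PreCurve.deg_zero]
    | succ k ih => rw [succ_nsmul, PreCurve.deg_add, ih]; push_cast; ring
  -- the bound along the multiples of `B`
  have hγ : ∀ l : ℕ, PreCurve.deg (l • B) - (Module.finrank K (C.toPreCurve.L (l • B)) : ℤ)
      ≤ PreCurve.deg C₀ - PreCurve.deg B := by
    intro l
    have h1 := hl l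
    have h2 := C.toPreCurve.finrank_L_le (A := l • B) (B := l • B + C₀)
      (le_add_of_nonneg_right hC₀)
    rw [PreCurve.deg_add] at h2
    have h3 : (((l + 1) * n : ℕ) : ℤ)
        ≤ (Module.finrank K (C.toPreCurve.L (l • B + C₀)) : ℤ) := by exact_mod_cast h1
    rw [hdegl l]
    push_cast at h3
    rw [hnB] at h3
    nlinarith
  refine ⟨PreCurve.deg C₀ - PreCurve.deg B, fun D => ?_⟩
  -- enlarge `D` to an effective divisor `A₁`
  set A₁ : X →₀ ℤ := D ⊔ 0 with hA₁
  have hDA : D ≤ A₁ := le_sup_left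
  have hA0 : 0 ≤ A₁ := le_sup_right
  refine le_trans (C.deg_sub_finrank_mono hDA) ?_
  -- choose `l` large
  obtain ⟨l, hlbig⟩ : ∃ l : ℕ, PreCurve.deg C₀ - PreCurve.deg B + PreCurve.deg A₁
      < l * PreCurve.deg B := by
    obtain ⟨l, hl'⟩ := exists_nat_gt (PreCurve.deg C₀ - PreCurve.deg B + PreCurve.deg A₁ : ℤ)
    refine ⟨l, lt_of_lt_of_le hl' ?_⟩
    have : (1 : ℤ) ≤ PreCurve.deg B := hnpos
    have hl0 : (0 : ℤ) ≤ (l : ℤ) := Int.natCast_nonneg l
    nlinarith
  have hle : l • B - A₁ ≤ l • B := sub_le_self _ hA0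
  have h4 := C.toPreCurve.finrank_L_le hle
  rw [PreCurve.deg_sub] at h4
  have h5 := hγ l
  rw [hdegl l] at h5 h4
  have hpos : 0 < Module.finrank K (C.toPreCurve.L (l • B - A₁)) := by
    have : (0 : ℤ) < (Module.finrank K (C.toPreCurve.L (l • B - A₁)) : ℤ) := by omega
    exact_mod_cast this
  have hfinL := C.toPreCurve.finite_L (l • B - A₁)
  obtain ⟨z, hz⟩ := (Module.finrank_pos_iff_exists_ne_zero).mp hpos
  have hz0 : (z : F) ≠ 0 := fun h => hz (Subtype.ext h)
  have hzL := z.2.resolve_left hz0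
  -- `A₁ - div z ≤ l B`
  have hD' : A₁ + C.toPreCurve.div (z : F)⁻¹ ≤ l • B := by
    intro q
    have := hzL q
    rw [C.toPreCurve.div_inv hz0, Finsupp.add_apply, Finsupp.neg_apply,
      C.toPreCurve.div_apply hz0]
    rw [Finsupp.sub_apply] at this
    omega
  have h6 := C.deg_sub_finrank_mono hD'
  rw [C.finrank_L_add_div A₁ (inv_ne_zero hz0), PreCurve.deg_add,
    C.deg_div (inv_ne_zero hz0), add_zero] at h6
  exact le_trans h6 (hγ l)

end Curve

end Fermat.Agent.RRL
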