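import Fermat.Agent.RR.Count
import Fermat.Agent.RR.Riemann
import Fermat.Agent.RR.AdlMain

/-!
# Main theorems of the abstract Riemann–Roch package (statements fixed by lead)
-/

set_option autoImplicit false

open scoped IntermediateField

namespace Fermat.Agent.RRL

variable {K F X : Type*} [Field K] [Field F] [Algebra K F]

/-- **Normalization from counting.**  If some non-constant `x` has `[F : K(x)] ≥ n` while every
fibre of `x` (zeros of `x - c`, and poles of `x`), counted with multiplicity, has at most `n`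
points, then all valuations are normalized and pairwise inequivalent. -/
theorem PreCurve.curve_of_count (C : PreCurve K F X) (x : F) (n : ℕ)
    (hx : ∀ c : K, x ≠ algebraMap K F c)
    (hn : (n : Cardinal) ≤ Module.rank K⟮x⟯ F)
    (hfin : ∀ c : K, ∑ᶠ p : X, max (C.ord p (x - algebraMap K F c)) 0 ≤ (n : ℤ))
    (hinf : ∑ᶠ p : X, max (-C.ord p x) 0 ≤ (n : ℤ)) :
    (∀ p : X, ∃ t : F, t ≠ 0 ∧ C.ord p t = 1) ∧
      (∀ p q : X, p ≠ q → ∃ u : F, u ≠ 0 ∧ 0 ≤ C.ord p u ∧ C.ord q u < 0) :=
  C.curve_of_count_aux x n hx hn hfin hinf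

/-- **Riemann–Roch for the canonical divisor of a residue system**:
`ℓ(W) = g` and `deg W = 2g - 2`, i.e. `2 ℓ(W) = deg W + 2`. -/
theorem Curve.two_mul_finrank_L_of_residueSystem [Nonempty X] (C : Curve K F X) (W : X →₀ ℤ)
    (R : ResidueSystem C.toPreCurve W) :
    Module.Finite K (C.toPreCurve.L W) ∧
      2 * (Module.finrank K (C.toPreCurve.L W) : ℤ) = PreCurve.deg W + 2 :=
  Adl.two_mul_finrank_L C W R C.exists_riemann_bound

end Fermat.Agent.RRL
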