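import Fermat.Agent.RR.AdlWeil

/-!
# Duality: `dim 𝔸 / (𝔸(A) + F) = ℓ(W - A)`

Uniqueness of differentials up to scalars in `F` by a dimension count, then the duality
isomorphism `L(W - A) ≃ {functionals on 𝔸 vanishing on 𝔸(A) + F}`, `x ↦ x ω₀`.
-/

set_option autoImplicit false

namespace Fermat.Agent.RRL.Adl

variable {K F X : Type*} [Field K] [Field F] [Algebra K F]

/-- The space of functionals vanishing on `𝔸(A) + F` has the dimension of `𝔸 / (𝔸(A) + F)`. -/
theorem finrank_dualAnnihilator_NA (C : PreCurve K F X) (A : X →₀ ℤ) :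
    Module.finrank K ↥(NA C A).dualAnnihilator = Module.finrank K (Ad C ⧸ NA C A) := by
  rw [← (Submodule.dualQuotEquivDualAnnihilator (NA C A)).finrank_eq, Subspace.dual_finrank_eq]

theorem finite_dualAnnihilator_NA (C : PreCurve K F X) (A : X →₀ ℤ)
    (h : Module.Finite K (Ad C ⧸ NA C A)) : Module.Finite K ↥(NA C A).dualAnnihilator :=
  Module.Finite.equiv (Submodule.dualQuotEquivDualAnnihilator (NA C A))

theorem mem_dualAnnihilator_of_le_ker {C : PreCurve K F X} {A : X →₀ ℤ} {ω : Ad C →ₗ[K] K}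
    (h : NA C A ≤ LinearMap.ker ω) : ω ∈ (NA C A).dualAnnihilator := by
  rw [Submodule.mem_dualAnnihilator]
  intro w hw
  exact LinearMap.mem_ker.mp (h hw)

theorem le_ker_of_mem_dualAnnihilator {C : PreCurve K F X} {A : X →₀ ℤ} {ω : Ad C →ₗ[K] K}
    (h : ω ∈ (NA C A).dualAnnihilator) : NA C A ≤ LinearMap.ker ω := by
  rw [Submodule.mem_dualAnnihilator] at h
  intro w hw
  exact LinearMap.mem_ker.mpr (h w hw)

theorem twist_zero {C : PreCurve K F X} (ω : Ad C →ₗ[K] K) : twist ω 0 = 0 := by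
  ext α
  simp

theorem twist_sub {C : PreCurve K F X} (ω : Ad C →ₗ[K] K) (x y : F) :
    twist ω (x - y) = twist ω x - twist ω y := by
  have := map_sub (twistL ω) x y
  simpa using this

/-- Uniqueness of differentials up to scalars in `F` (dimension count). -/
theorem exists_twist_eq [Nonempty X] (C : Curve K F X) {W : X →₀ ℤ}
    (R : ResidueSystem C.toPreCurve W) {m : ℤ}
    (hm : ∀ D : X →₀ ℤ, PreCurve.deg D - (Module.finrank K (C.toPreCurve.L D) : ℤ) ≤ m)
    {B₀ : X →₀ ℤ} (hB₀ : PreCurve.deg B₀ - (Module.finrank K (C.toPreCurve.L B₀) : ℤ) = m)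
    (A : X →₀ ℤ) (ω : Ad C.toPreCurve →ₗ[K] K) (hω : NA C.toPreCurve A ≤ LinearMap.ker ω) :
    ∃ x : F, ω = twist (omega R) x := by
  classical
  by_cases hω0 : ω = 0
  · exact ⟨0, by rw [hω0, twist_zero]⟩
  obtain ⟨p₀⟩ := ‹Nonempty X›
  -- choose `n` large
  obtain ⟨n, hn⟩ : ∃ n : ℕ, 3 * m + 1 - PreCurve.deg W - PreCurve.deg A < (n : ℤ) :=
    exists_nat_gt (3 * m + 1 - PreCurve.deg W - PreCurve.deg A : ℤ)
  set B : X →₀ ℤ := Finsupp.single p₀ (n : ℤ) with hB
  have hdegB : PreCurve.deg B = n := deg_single p₀ n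
  have hB0 : -B ≤ 0 := by
    rw [hB, neg_nonpos]
    intro q
    rw [Finsupp.single_apply]
    split_ifs
    · exact Int.natCast_nonneg n
    · exact le_rfl
  -- the target space
  obtain ⟨hfinQ, hidx⟩ := index_formula C hm hB₀ (-B)
  have hfinV := finite_dualAnnihilator_NA C.toPreCurve (-B) hfinQ
  have hV : (Module.finrank K ↥(NA C.toPreCurve (-B)).dualAnnihilator : ℤ) ≤ 1 + n + m := by
    rw [finrank_dualAnnihilator_NA, hidx]
    have h1 := C.toPreCurve.finrank_L_mono hB0
    rw [C.toPreCurve.finrank_L_zero] at h1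
    have h2 : PreCurve.deg (-B) = -(n : ℤ) := by
      rw [PreCurve.deg_neg, hdegB]
    rw [h2]
    have h3 : (Module.finrank K (C.toPreCurve.L (-B)) : ℤ) ≤ 1 := by exact_mod_cast h1
    omega
  -- the map
  have hfin1 := C.toPreCurve.finite_L (W + B)
  have hfin2 := C.toPreCurve.finite_L (A + B)
  let Ψ : (C.toPreCurve.L (W + B) × C.toPreCurve.L (A + B)) →ₗ[K]
      Module.Dual K (Ad C.toPreCurve) :=
    ((twistL (omega R)).comp (C.toPreCurve.L (W + B)).subtype).comp
        (LinearMap.fst K _ _)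
      - ((twistL ω).comp (C.toPreCurve.L (A + B)).subtype).comp (LinearMap.snd K _ _)
  have hΨ : ∀ z, Ψ z = twist (omega R) (z.1 : F) - twist ω (z.2 : F) := fun z => rfl
  have hrange : LinearMap.range Ψ ≤ (NA C.toPreCurve (-B)).dualAnnihilator := by
    rintro φ ⟨z, rfl⟩
    rw [hΨ]
    refine Submodule.sub_mem _ ?_ ?_
    · apply mem_dualAnnihilator_of_le_ker
      have := NA_le_ker_twist (NA_le_ker_omega R) z.1.2
      rwa [show W - (W + B) = -B by abel] at this
    · apply mem_dualAnnihilator_of_le_ker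
      have := NA_le_ker_twist hω z.2.2
      rwa [show A - (A + B) = -B by abel] at this
  have hdom : (Module.finrank K (C.toPreCurve.L (W + B) × C.toPreCurve.L (A + B)) : ℤ)
      > 1 + n + m := by
    rw [Module.finrank_prod]
    have h1 := hm (W + B)
    have h2 := hm (A + B)
    rw [PreCurve.deg_add, hdegB] at h1 h2
    push_cast
    omega
  have hninj : ¬ Function.Injective Ψ := by
    intro hinj
    have h1 := LinearMap.finrank_range_of_inj hinj
    have h2 := Submodule.finrank_mono hrange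
    have h3 : (Module.finrank K (C.toPreCurve.L (W + B) × C.toPreCurve.L (A + B)) : ℤ)
        ≤ (Module.finrank K ↥(NA C.toPreCurve (-B)).dualAnnihilator : ℤ) := by
      rw [← h1]
      exact_mod_cast h2
    omega
  rw [injective_iff_map_eq_zero] at hninj
  push Not at hninj
  obtain ⟨z, hz, hz0⟩ := hninj
  rw [hΨ, sub_eq_zero] at hz
  have hx₂ : (z.2 : F) ≠ 0 := by
    intro h2
    rw [h2, twist_zero] at hz
    have h1 : (z.1 : F) = 0 := by
      by_contra h1
      exact twist_ne_zero (omega_ne_zero C R) h1 hz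
    apply hz0
    exact Prod.ext (Subtype.ext h1) (Subtype.ext h2)
  refine ⟨(z.1 : F) * (z.2 : F)⁻¹, ?_⟩
  rw [← twist_twist, hz, twist_twist, mul_inv_cancel₀ hx₂, twist_one]

/-- **Duality**: `dim 𝔸 / (𝔸(A) + F) = ℓ(W - A)`. -/
theorem finrank_quot_eq [Nonempty X] (C : Curve K F X) {W : X →₀ ℤ}
    (R : ResidueSystem C.toPreCurve W) {m : ℤ}
    (hm : ∀ D : X →₀ ℤ, PreCurve.deg D - (Module.finrank K (C.toPreCurve.L D) : ℤ) ≤ m)
    {B₀ : X →₀ ℤ} (hB₀ : PreCurve.deg B₀ - (Module.finrank K (C.toPreCurve.L B₀) : ℤ) = m)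
    (A : X →₀ ℤ) :
    Module.finrank K (Ad C.toPreCurve ⧸ NA C.toPreCurve A)
      = Module.finrank K (C.toPreCurve.L (W - A)) := by
  rw [← finrank_dualAnnihilator_NA]
  let Θ : C.toPreCurve.L (W - A) →ₗ[K] Module.Dual K (Ad C.toPreCurve) :=
    (twistL (omega R)).comp (C.toPreCurve.L (W - A)).subtype
  have hΘ : ∀ x, Θ x = twist (omega R) (x : F) := fun x => rfl
  have hinj : Function.Injective Θ := by
    rw [injective_iff_map_eq_zero]
    intro x hx
    rw [hΘ] at hx
    by_contra hx0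
    exact twist_ne_zero (omega_ne_zero C R) (fun h => hx0 (Subtype.ext h)) hx
  have hrange : LinearMap.range Θ = (NA C.toPreCurve A).dualAnnihilator := by
    apply le_antisymm
    · rintro φ ⟨x, rfl⟩
      rw [hΘ]
      apply mem_dualAnnihilator_of_le_ker
      have := NA_le_ker_twist (NA_le_ker_omega R) x.2
      rwa [show W - (W - A) = A by abel] at this
    · intro φ hφ
      have hker := le_ker_of_mem_dualAnnihilator hφ
      obtain ⟨x, hx⟩ := exists_twist_eq C R hm hB₀ A φ hker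
      have hxL : x ∈ C.toPreCurve.L (W - A) := by
        apply mem_L_of_le_ker_twist C R A
        rw [← hx]
        exact le_trans (adeleOf_le_NA C.toPreCurve A) hker
      exact ⟨⟨x, hxL⟩, hx.symm⟩
  rw [← hrange, LinearMap.finrank_range_of_inj hinj]

end Fermat.Agent.RRL.Adl
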