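import Fermat.Agent.RR.Basic

/-!
# Basic properties of the Riemann–Roch spaces `L(D)` of a `PreCurve`
-/

set_option autoImplicit false

namespace Fermat.Agent.RRL

namespace PreCurve

variable {K F X : Type*} [Field K] [Field F] [Algebra K F] (C : PreCurve K F X)

theorem L_mono {A B : X →₀ ℤ} (h : A ≤ B) : C.L A ≤ C.L B := by
  intro x hx
  rw [mem_L_iff_forall_mem_ball] at hx ⊢
  intro p
  exact C.ball_antitone p (neg_le_neg (h p)) (hx p)

/-- `L(0)` consists of the constants. -/
theorem L_zero_eq_span : C.L 0 = Submodule.span K {(1 : F)} := by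
  apply le_antisymm
  · intro x hx
    rcases (C.mem_L 0 x).1 hx with rfl | h
    · exact Submodule.zero_mem _
    · by_cases hx0 : x = 0
      · rw [hx0]; exact Submodule.zero_mem _
      obtain ⟨c, rfl⟩ := C.const_of_nonneg hx0 (fun p => by simpa using h p)
      rw [Submodule.mem_span_singleton]
      exact ⟨c, by rw [Algebra.smul_def, mul_one]⟩
  · rw [Submodule.span_le, Set.singleton_subset_iff]
    refine (C.mem_L 0 1).2 (Or.inr fun p => ?_)
    simp [C.ord_one p]

theorem finrank_L_zero : Module.finrank K (C.L 0) = 1 := by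
  rw [L_zero_eq_span]
  exact finrank_span_singleton one_ne_zero

/-- If `x₀ ∈ L(A + p) \ L(A)` then `L(A + p) ≤ L(A) + K x₀`. -/
theorem L_add_single_le_sup (A : X →₀ ℤ) (p : X) {x₀ : F}
    (hx₀ : x₀ ∈ C.L (A + Finsupp.single p 1)) (hx₀' : x₀ ∉ C.L A) :
    C.L (A + Finsupp.single p 1) ≤ C.L A ⊔ Submodule.span K {x₀} := by
  classical
  have hne : x₀ ≠ 0 := by
    rintro rfl
    exact hx₀' (Submodule.zero_mem _)
  have h1 : ∀ q : X, -((A + Finsupp.single p 1 : X →₀ ℤ) q) ≤ C.ord q x₀ := by
    rcases (C.mem_L _ x₀).1 hx₀ with h | h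
    · exact absurd h hne
    · exact h
  have hq : ∀ q : X, q ≠ p → -A q ≤ C.ord q x₀ := by
    intro q hqp
    have := h1 q
    simpa [Finsupp.single_apply, hqp.symm] using this
  have hp1 : -A p - 1 ≤ C.ord p x₀ := by
    have := h1 p
    simp only [Finsupp.add_apply, Finsupp.single_eq_same] at this
    linarith
  have hp2 : C.ord p x₀ < -A p := by
    by_contra hcon
    push Not at hcon
    apply hx₀'
    refine (C.mem_L _ x₀).2 (Or.inr fun q => ?_)
    by_cases hqp : q = p
    · rw [hqp]; exact hcon
    · exact hq q hqp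
  have hp : C.ord p x₀ = -A p - 1 := by omega
  intro x hx
  have hxb : ∀ q : X, x ∈ C.ball q (-((A + Finsupp.single p 1 : X →₀ ℤ) q)) :=
    (C.mem_L_iff_forall_mem_ball _ x).1 hx
  have hxp : x ∈ C.ball p (-A p - 1) := by
    have := hxb p
    simp only [Finsupp.add_apply, Finsupp.single_eq_same] at this
    have e : -(A p + 1) = -A p - 1 := by ring
    rwa [e] at this
  obtain ⟨c, hc⟩ := C.exists_sub_smul_mem_ball p (-A p - 1) hne hp hxp
  have hmem : x - c • x₀ ∈ C.L A := by
    rw [mem_L_iff_forall_mem_ball]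
    intro q
    by_cases hqp : q = p
    · rw [hqp]
      have e : -A p - 1 + 1 = -A p := by ring
      rwa [e] at hc
    · have hxq : x ∈ C.ball q (-A q) := by
        have := hxb q
        simpa [Finsupp.single_apply, Ne.symm hqp] using this
      have hx₀q : x₀ ∈ C.ball q (-A q) := Or.inr (hq q hqp)
      exact Submodule.sub_mem _ hxq (Submodule.smul_mem _ c hx₀q)
  have : x = (x - c • x₀) + c • x₀ := by ring
  rw [this]
  exact Submodule.add_mem_sup hmem
    (Submodule.smul_mem _ c (Submodule.mem_span_singleton_self x₀))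

/-- One-point step: finiteness is preserved and the dimension grows by at most one. -/
theorem finite_L_add_single (A : X →₀ ℤ) (p : X) (hA : Module.Finite K (C.L A)) :
    Module.Finite K (C.L (A + Finsupp.single p 1)) ∧
      Module.finrank K (C.L (A + Finsupp.single p 1)) ≤ Module.finrank K (C.L A) + 1 := by
  by_cases h : ∃ x₀, x₀ ∈ C.L (A + Finsupp.single p 1) ∧ x₀ ∉ C.L A
  · obtain ⟨x₀, hx₀, hx₀'⟩ := h
    have hle := C.L_add_single_le_sup A p hx₀ hx₀'
    have hfin : Module.Finite K ↥(C.L A ⊔ Submodule.span K {x₀}) := inferInstance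
    have hfin' : Module.Finite K (C.L (A + Finsupp.single p 1)) :=
      Submodule.finiteDimensional_of_le hle
    refine ⟨hfin', ?_⟩
    calc Module.finrank K (C.L (A + Finsupp.single p 1))
        ≤ Module.finrank K ↥(C.L A ⊔ Submodule.span K {x₀}) := Submodule.finrank_mono hle
      _ ≤ Module.finrank K (C.L A) + Module.finrank K (Submodule.span K {x₀}) :=
          Submodule.finrank_add_le_finrank_add_finrank _ _
      _ ≤ Module.finrank K (C.L A) + 1 := by
          have : Module.finrank K (Submodule.span K {x₀}) ≤ 1 := by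
            have := finrank_span_le_card (R := K) ({x₀} : Set F)
            simpa using this
          omega
  · push Not at h
    have hle : C.L (A + Finsupp.single p 1) ≤ C.L A := fun x hx => h x hx
    have hfin' : Module.Finite K (C.L (A + Finsupp.single p 1)) :=
      Submodule.finiteDimensional_of_le hle
    exact ⟨hfin', (Submodule.finrank_mono hle).trans (Nat.le_succ _)⟩

/-- Induction on `deg B - deg A` for `A ≤ B`. -/
theorem finite_L_of_le_aux (A : X →₀ ℤ) (hA : Module.Finite K (C.L A)) :
    ∀ (n : ℕ) (B : X →₀ ℤ), A ≤ B → deg B - deg A = n →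
      Module.Finite K (C.L B) ∧
        (Module.finrank K (C.L B) : ℤ) ≤ Module.finrank K (C.L A) + n := by
  classical
  have key : ∀ B : X →₀ ℤ, A ≤ B → A ≠ B →
      ∃ p : X, A ≤ B - Finsupp.single p 1 ∧
        deg (B - Finsupp.single p 1) = deg B - 1 := by
    intro B hAB hne
    obtain ⟨p, hp⟩ : ∃ p, A p < B p := by
      by_contra hcon
      push Not at hcon
      exact hne (Finsupp.ext fun q => le_antisymm (hAB q) (hcon q))
    refine ⟨p, ?_, by rw [deg_sub, deg_single]⟩
    intro q
    by_cases hq : q = p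
    · rw [hq]
      simp only [Finsupp.coe_sub, Pi.sub_apply, Finsupp.single_eq_same]
      omega
    · have hAq : A q ≤ B q := hAB q
      simpa [Finsupp.single_apply, Ne.symm hq] using hAq
  intro n
  induction n with
  | zero =>
    intro B hAB hdeg
    have hAB' : A = B := by
      by_contra hne
      obtain ⟨p, h1, h2⟩ := key B hAB hne
      have h3 := deg_le_deg h1
      rw [h2] at h3
      simp only [Nat.cast_zero] at hdeg
      linarith
    subst hAB'
    exact ⟨hA, by simp⟩
  | succ k ih =>
    intro B hAB hdeg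
    have hne : A ≠ B := by
      rintro rfl
      simp only [sub_self] at hdeg
      omega
    obtain ⟨p, h1, h2⟩ := key B hAB hne
    obtain ⟨h3, h4⟩ := ih (B - Finsupp.single p 1) h1 (by
      rw [h2]
      push_cast at hdeg
      linarith)
    obtain ⟨h5, h6⟩ := C.finite_L_add_single _ p h3
    rw [sub_add_cancel] at h5 h6
    refine ⟨h5, ?_⟩
    have h6' : (Module.finrank K (C.L B) : ℤ) ≤
        Module.finrank K (C.L (B - Finsupp.single p 1)) + 1 := by
      exact_mod_cast h6
    push_cast
    linarith

/-- For `A ≤ B`: finiteness of `L(A)` implies that of `L(B)`, with the dimension bound. -/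
theorem finite_L_of_le {A B : X →₀ ℤ} (h : A ≤ B) (hA : Module.Finite K (C.L A)) :
    Module.Finite K (C.L B) ∧
      (Module.finrank K (C.L B) : ℤ) ≤ Module.finrank K (C.L A) + (deg B - deg A) := by
  have h0 : 0 ≤ deg B - deg A := by
    have := deg_le_deg h
    linarith
  have := C.finite_L_of_le_aux A hA (deg B - deg A).toNat B h (Int.toNat_of_nonneg h0).symm
  rwa [Int.toNat_of_nonneg h0] at this

theorem finite_L (D : X →₀ ℤ) : Module.Finite K (C.L D) := by
  have h0 : Module.Finite K (C.L 0) := by
    rw [L_zero_eq_span]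
    infer_instance
  have h1 : Module.Finite K (C.L (D ⊓ 0)) :=
    Submodule.finiteDimensional_of_le (C.L_mono (inf_le_right : D ⊓ 0 ≤ 0))
  exact (C.finite_L_of_le (inf_le_left : D ⊓ 0 ≤ D) h1).1

theorem finrank_L_add_single_le (A : X →₀ ℤ) (p : X) :
    Module.finrank K (C.L (A + Finsupp.single p 1)) ≤ Module.finrank K (C.L A) + 1 :=
  (C.finite_L_add_single A p (C.finite_L A)).2

theorem finrank_L_le {A B : X →₀ ℤ} (h : A ≤ B) :
    (Module.finrank K (C.L B) : ℤ) ≤ Module.finrank K (C.L A) + (deg B - deg A) :=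
  (C.finite_L_of_le h (C.finite_L A)).2

/-- Monotonicity of `ℓ`. -/
theorem finrank_L_mono {A B : X →₀ ℤ} (h : A ≤ B) :
    Module.finrank K (C.L A) ≤ Module.finrank K (C.L B) := by
  have := C.finite_L B
  exact Submodule.finrank_mono (C.L_mono h)

end PreCurve

end Fermat.Agent.RRL
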