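import Fermat.Agent.RR.AdlSpace
import Fermat.Agent.RR.LSpace

/-!
# The index of speciality: `dim 𝔸 / (𝔸(A) + F) = ℓ(A) - deg A + m`

Here `m` is the maximum of `deg D - ℓ(D)` (so `m = g - 1`), which exists by Riemann's theorem
(an explicit hypothesis in this file).
-/

set_option autoImplicit false

namespace Fermat.Agent.RRL.Adl

variable {K F X : Type*} [Field K] [Field F] [Algebra K F]

/-- Linear algebra: enlarging a subspace `N` by one vector `v` keeps finite codimension, and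
the codimension drops by one or zero according to whether `v ∉ N` or `v ∈ N`. -/
theorem finrank_quot_step {M : Type*} [AddCommGroup M] [Module K M] (N : Submodule K M) (v : M)
    (h : Module.Finite K (M ⧸ (N ⊔ Submodule.span K {v}))) :
    Module.Finite K (M ⧸ N) ∧
      (v ∈ N → Module.finrank K (M ⧸ N) = Module.finrank K (M ⧸ (N ⊔ Submodule.span K {v}))) ∧
      (v ∉ N →
        Module.finrank K (M ⧸ N) = Module.finrank K (M ⧸ (N ⊔ Submodule.span K {v})) + 1) := by
  have hle : N ≤ N ⊔ Submodule.span K {v} := le_sup_left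
  -- the image of `N ⊔ K v` in `M ⧸ N` is the line spanned by the class of `v`
  have hmap : (N ⊔ Submodule.span K {v}).map N.mkQ = Submodule.span K {N.mkQ v} := by
    have hN : N.map N.mkQ = ⊥ := by
      exact Submodule.mkQ_map_self N
    rw [Submodule.map_sup, Submodule.map_span, Set.image_singleton, hN, bot_sup_eq]
  have hfinker : Module.Finite K ((N ⊔ Submodule.span K {v}).map N.mkQ) := by
    rw [hmap]
    infer_instance
  have hfinquot : Module.Finite K ((M ⧸ N) ⧸ (N ⊔ Submodule.span K {v}).map N.mkQ) :=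
    Module.Finite.equiv (Submodule.quotientQuotientEquivQuotient N _ hle).symm
  have hfin : Module.Finite K (M ⧸ N) :=
    Module.Finite.of_submodule_quotient ((N ⊔ Submodule.span K {v}).map N.mkQ)
  have hcount : Module.finrank K ((M ⧸ N) ⧸ (N ⊔ Submodule.span K {v}).map N.mkQ) +
      Module.finrank K ((N ⊔ Submodule.span K {v}).map N.mkQ) = Module.finrank K (M ⧸ N) :=
    Submodule.finrank_quotient_add_finrank _
  have he : Module.finrank K ((M ⧸ N) ⧸ (N ⊔ Submodule.span K {v}).map N.mkQ) =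
      Module.finrank K (M ⧸ (N ⊔ Submodule.span K {v})) :=
    (Submodule.quotientQuotientEquivQuotient N _ hle).finrank_eq
  have hk : Module.finrank K ((N ⊔ Submodule.span K {v}).map N.mkQ) =
      Module.finrank K (Submodule.span K {N.mkQ v}) := by
    rw [hmap]
  refine ⟨hfin, ?_, ?_⟩
  · intro hv
    have h0 : N.mkQ v = 0 := (Submodule.Quotient.mk_eq_zero N).2 hv
    have h1 : Module.finrank K (Submodule.span K {N.mkQ v}) = 0 := by
      rw [h0, Submodule.span_zero_singleton]
      exact finrank_bot K (M ⧸ N)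
    omega
  · intro hv
    have h0 : N.mkQ v ≠ 0 := fun h0 => hv ((Submodule.Quotient.mk_eq_zero N).1 h0)
    have h1 : Module.finrank K (Submodule.span K {N.mkQ v}) = 1 := finrank_span_singleton h0
    omega

/-- `A ≤ A + p`. -/
theorem le_add_single (A : X →₀ ℤ) (p : X) : A ≤ A + Finsupp.single p 1 := by
  classical
  intro q
  have h0 : (0 : ℤ) ≤ Finsupp.single p (1 : ℤ) q := by
    rw [Finsupp.single_apply]
    split_ifs <;> norm_num
  rw [Finsupp.add_apply]
  linarith

/-- If `A ≤ B` and `A ≠ B`, one can add a point to `A` and stay below `B`. -/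
theorem exists_add_single_le {A B : X →₀ ℤ} (hAB : A ≤ B) (hne : A ≠ B) :
    ∃ p : X, A + Finsupp.single p 1 ≤ B := by
  classical
  obtain ⟨p, hp⟩ : ∃ p, A p < B p := by
    by_contra hcon
    push Not at hcon
    exact hne (Finsupp.ext fun q => le_antisymm (hAB q) (hcon q))
  refine ⟨p, fun q => ?_⟩
  by_cases hq : q = p
  · rw [hq]
    simp only [Finsupp.add_apply, Finsupp.single_eq_same]
    omega
  · have hAq : A q ≤ B q := hAB q
    simpa [Finsupp.single_apply, Ne.symm hq] using hAq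

/-- The one-point step for `ℓ`: `ℓ(A + p) = ℓ(A) + 1` if `L(A + p) ≠ L(A)`. -/
theorem finrank_L_add_single_of_exists (C : PreCurve K F X) (A : X →₀ ℤ) (p : X)
    (h : ∃ x : F, x ∈ C.L (A + Finsupp.single p 1) ∧ x ∉ C.L A) :
    Module.finrank K (C.L (A + Finsupp.single p 1)) = Module.finrank K (C.L A) + 1 := by
  obtain ⟨x, hx, hx'⟩ := h
  have hfin : Module.Finite K (C.L (A + Finsupp.single p 1)) := C.finite_L _
  have hle : C.L A ≤ C.L (A + Finsupp.single p 1) := C.L_mono (le_add_single A p)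
  have hlt : C.L A < C.L (A + Finsupp.single p 1) :=
    lt_of_le_of_ne hle fun heq => hx' (heq ▸ hx)
  have h1 := Submodule.finrank_lt_finrank_of_lt hlt
  have h2 := C.finrank_L_add_single_le A p
  omega

/-- The one-point step for `ℓ`: `ℓ(A + p) = ℓ(A)` if `L(A + p) = L(A)`. -/
theorem finrank_L_add_single_of_not_exists (C : PreCurve K F X) (A : X →₀ ℤ) (p : X)
    (h : ¬ ∃ x : F, x ∈ C.L (A + Finsupp.single p 1) ∧ x ∉ C.L A) :
    Module.finrank K (C.L (A + Finsupp.single p 1)) = Module.finrank K (C.L A) := by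
  push Not at h
  have hle : C.L (A + Finsupp.single p 1) ≤ C.L A := fun x hx => h x hx
  have heq : C.L (A + Finsupp.single p 1) = C.L A :=
    le_antisymm hle (C.L_mono (le_add_single A p))
  rw [heq]

/-- If `deg D - ℓ(D)` is bounded above, its maximum `m` is attained. -/
theorem exists_max_of_bound (C : PreCurve K F X)
    (h : ∃ γ : ℤ, ∀ D : X →₀ ℤ, PreCurve.deg D - (Module.finrank K (C.L D) : ℤ) ≤ γ) :
    ∃ (m : ℤ) (B₀ : X →₀ ℤ),
      (∀ D : X →₀ ℤ, PreCurve.deg D - (Module.finrank K (C.L D) : ℤ) ≤ m) ∧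
        PreCurve.deg B₀ - (Module.finrank K (C.L B₀) : ℤ) = m := by
  obtain ⟨γ, hγ⟩ := h
  have hbdd : ∃ b : ℤ, ∀ z : ℤ,
      (∃ D : X →₀ ℤ, PreCurve.deg D - (Module.finrank K (C.L D) : ℤ) = z) → z ≤ b := by
    refine ⟨γ, ?_⟩
    rintro z ⟨D, rfl⟩
    exact hγ D
  have hne : ∃ z : ℤ, ∃ D : X →₀ ℤ, PreCurve.deg D - (Module.finrank K (C.L D) : ℤ) = z :=
    ⟨_, 0, rfl⟩
  obtain ⟨m, ⟨B₀, hB₀⟩, hmax⟩ := Int.exists_greatest_of_bdd hbdd hne
  exact ⟨m, B₀, fun D => hmax _ ⟨D, rfl⟩, hB₀⟩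

/-- Above a divisor where `deg - ℓ` is maximal, `deg - ℓ` is still maximal. -/
theorem deg_sub_finrank_eq_of_le (C : PreCurve K F X) {m : ℤ}
    (hm : ∀ D : X →₀ ℤ, PreCurve.deg D - (Module.finrank K (C.L D) : ℤ) ≤ m)
    {B₀ : X →₀ ℤ} (hB₀ : PreCurve.deg B₀ - (Module.finrank K (C.L B₀) : ℤ) = m)
    {B : X →₀ ℤ} (hB : B₀ ≤ B) :
    PreCurve.deg B - (Module.finrank K (C.L B) : ℤ) = m := by
  have h1 := C.finrank_L_le hB
  have h2 := hm B
  linarith

/-- If `deg - ℓ` is maximal at `B`, then `L(B + p) ≠ L(B)`. -/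
theorem exists_mem_L_add_single_of_max (C : PreCurve K F X) {m : ℤ}
    (hm : ∀ D : X →₀ ℤ, PreCurve.deg D - (Module.finrank K (C.L D) : ℤ) ≤ m)
    {B : X →₀ ℤ} (hB : PreCurve.deg B - (Module.finrank K (C.L B) : ℤ) = m) (p : X) :
    ∃ x : F, x ∈ C.L (B + Finsupp.single p 1) ∧ x ∉ C.L B := by
  by_contra hcon
  have h1 := finrank_L_add_single_of_not_exists C B p hcon
  have h2 := hm (B + Finsupp.single p 1)
  rw [deg_add_single, h1] at h2
  linarith

/-- If `deg - ℓ` is maximal at `B`, then `𝔸(B + p) + F = 𝔸(B) + F`. -/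
theorem NA_add_single_of_max (C : Curve K F X) {m : ℤ}
    (hm : ∀ D : X →₀ ℤ, PreCurve.deg D - (Module.finrank K (C.toPreCurve.L D) : ℤ) ≤ m)
    {B : X →₀ ℤ} (hB : PreCurve.deg B - (Module.finrank K (C.toPreCurve.L B) : ℤ) = m) (p : X) :
    NA C.toPreCurve (B + Finsupp.single p 1) = NA C.toPreCurve B := by
  obtain ⟨y, hy, hyp⟩ := exists_ord_eq C p (-B p - 1)
  have hmem : single C.toPreCurve p y ∈ NA C.toPreCurve B :=
    (single_mem_NA_iff C.toPreCurve B p hy hyp).2
      (exists_mem_L_add_single_of_max C.toPreCurve hm hB p)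
  rw [NA_add_single C.toPreCurve B p hy hyp]
  exact sup_eq_left.2 ((Submodule.span_singleton_le_iff_mem _ _).2 hmem)

/-- Above a divisor `B₀` where `deg - ℓ` is maximal, `𝔸(B) + F` does not depend on `B`. -/
theorem NA_eq_of_le_aux (C : Curve K F X) {m : ℤ}
    (hm : ∀ D : X →₀ ℤ, PreCurve.deg D - (Module.finrank K (C.toPreCurve.L D) : ℤ) ≤ m)
    {B₀ : X →₀ ℤ} (hB₀ : PreCurve.deg B₀ - (Module.finrank K (C.toPreCurve.L B₀) : ℤ) = m) :
    ∀ (n : ℕ) (B B' : X →₀ ℤ), B₀ ≤ B → B ≤ B' → PreCurve.deg B' - PreCurve.deg B = n →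
      NA C.toPreCurve B' = NA C.toPreCurve B := by
  intro n
  induction n with
  | zero =>
    intro B B' _ hBB' hdeg
    have hBB : B = B' := by
      by_contra hne
      obtain ⟨p, hp⟩ := exists_add_single_le hBB' hne
      have h3 := PreCurve.deg_le_deg hp
      rw [deg_add_single] at h3
      simp only [Nat.cast_zero] at hdeg
      linarith
    rw [hBB]
  | succ k ih =>
    intro B B' hB hBB' hdeg
    have hne : B ≠ B' := by
      rintro rfl
      simp only [sub_self] at hdeg
      omega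
    obtain ⟨p, hp⟩ := exists_add_single_le hBB' hne
    have h1 : NA C.toPreCurve B' = NA C.toPreCurve (B + Finsupp.single p 1) := by
      refine ih (B + Finsupp.single p 1) B' (hB.trans (le_add_single B p)) hp ?_
      rw [deg_add_single]
      push_cast at hdeg
      linarith
    rw [h1]
    exact NA_add_single_of_max C hm (deg_sub_finrank_eq_of_le C.toPreCurve hm hB₀ hB) p

/-- Above a divisor `B₀` where `deg - ℓ` is maximal, `𝔸 = 𝔸(B) + F`. -/
theorem NA_eq_top (C : Curve K F X) {m : ℤ}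
    (hm : ∀ D : X →₀ ℤ, PreCurve.deg D - (Module.finrank K (C.toPreCurve.L D) : ℤ) ≤ m)
    {B₀ : X →₀ ℤ} (hB₀ : PreCurve.deg B₀ - (Module.finrank K (C.toPreCurve.L B₀) : ℤ) = m)
    {B : X →₀ ℤ} (hB : B₀ ≤ B) : NA C.toPreCurve B = ⊤ := by
  rw [eq_top_iff]
  intro α _
  obtain ⟨B', hBB', hα⟩ := exists_ge_mem_adeleOf C.toPreCurve B α
  have h0 : 0 ≤ PreCurve.deg B' - PreCurve.deg B := by
    have := PreCurve.deg_le_deg hBB'
    linarith
  have heq : NA C.toPreCurve B' = NA C.toPreCurve B :=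
    NA_eq_of_le_aux C hm hB₀ (PreCurve.deg B' - PreCurve.deg B).toNat B B' hB hBB'
      (Int.toNat_of_nonneg h0).symm
  rw [← heq]
  exact adeleOf_le_NA C.toPreCurve B' hα

/-- The downward one-point step for the index formula. -/
theorem index_formula_step (C : Curve K F X) {m : ℤ} (A : X →₀ ℤ) (p : X)
    (h : Module.Finite K
        (Ad C.toPreCurve ⧸ NA C.toPreCurve (A + Finsupp.single p 1)) ∧
      (Module.finrank K (Ad C.toPreCurve ⧸ NA C.toPreCurve (A + Finsupp.single p 1)) : ℤ)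
        = Module.finrank K (C.toPreCurve.L (A + Finsupp.single p 1))
          - PreCurve.deg (A + Finsupp.single p 1) + m) :
    Module.Finite K (Ad C.toPreCurve ⧸ NA C.toPreCurve A) ∧
      (Module.finrank K (Ad C.toPreCurve ⧸ NA C.toPreCurve A) : ℤ)
        = Module.finrank K (C.toPreCurve.L A) - PreCurve.deg A + m := by
  obtain ⟨y, hy, hyp⟩ := exists_ord_eq C p (-A p - 1)
  obtain ⟨hfin, hrank⟩ := h
  have hNA := NA_add_single C.toPreCurve A p hy hyp
  rw [hNA] at hfin hrank
  obtain ⟨h1, h2, h3⟩ := finrank_quot_step (NA C.toPreCurve A) (single C.toPreCurve p y) hfin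
  refine ⟨h1, ?_⟩
  rw [deg_add_single] at hrank
  by_cases hex : ∃ x : F, x ∈ C.toPreCurve.L (A + Finsupp.single p 1) ∧ x ∉ C.toPreCurve.L A
  · have hv := (single_mem_NA_iff C.toPreCurve A p hy hyp).2 hex
    have h4 := finrank_L_add_single_of_exists C.toPreCurve A p hex
    rw [h2 hv, hrank, h4]
    push_cast
    ring
  · have hv : single C.toPreCurve p y ∉ NA C.toPreCurve A := fun hv =>
      hex ((single_mem_NA_iff C.toPreCurve A p hy hyp).1 hv)
    have h4 := finrank_L_add_single_of_not_exists C.toPreCurve A p hex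
    rw [h3 hv]
    push_cast
    rw [hrank, h4]
    ring

/-- The index formula above `B₀`: both sides vanish. -/
theorem index_formula_of_le (C : Curve K F X) {m : ℤ}
    (hm : ∀ D : X →₀ ℤ, PreCurve.deg D - (Module.finrank K (C.toPreCurve.L D) : ℤ) ≤ m)
    {B₀ : X →₀ ℤ} (hB₀ : PreCurve.deg B₀ - (Module.finrank K (C.toPreCurve.L B₀) : ℤ) = m)
    {B : X →₀ ℤ} (hB : B₀ ≤ B) :
    Module.Finite K (Ad C.toPreCurve ⧸ NA C.toPreCurve B) ∧
      (Module.finrank K (Ad C.toPreCurve ⧸ NA C.toPreCurve B) : ℤ)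
        = Module.finrank K (C.toPreCurve.L B) - PreCurve.deg B + m := by
  have htop := NA_eq_top C hm hB₀ hB
  have hsub : Subsingleton (Ad C.toPreCurve ⧸ NA C.toPreCurve B) :=
    Submodule.Quotient.subsingleton_iff.2 htop
  have hdeg := deg_sub_finrank_eq_of_le C.toPreCurve hm hB₀ hB
  refine ⟨inferInstance, ?_⟩
  rw [Module.finrank_zero_of_subsingleton]
  push_cast
  linarith

/-- Induction on `deg B - deg A` for `A ≤ B`, `B₀ ≤ B`. -/
theorem index_formula_aux (C : Curve K F X) {m : ℤ}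
    (hm : ∀ D : X →₀ ℤ, PreCurve.deg D - (Module.finrank K (C.toPreCurve.L D) : ℤ) ≤ m)
    {B₀ : X →₀ ℤ} (hB₀ : PreCurve.deg B₀ - (Module.finrank K (C.toPreCurve.L B₀) : ℤ) = m) :
    ∀ (n : ℕ) (A B : X →₀ ℤ), A ≤ B → B₀ ≤ B → PreCurve.deg B - PreCurve.deg A = n →
      Module.Finite K (Ad C.toPreCurve ⧸ NA C.toPreCurve A) ∧
        (Module.finrank K (Ad C.toPreCurve ⧸ NA C.toPreCurve A) : ℤ)
          = Module.finrank K (C.toPreCurve.L A) - PreCurve.deg A + m := by
  intro n
  induction n with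
  | zero =>
    intro A B hAB hB hdeg
    have hAB' : A = B := by
      by_contra hne
      obtain ⟨p, hp⟩ := exists_add_single_le hAB hne
      have h3 := PreCurve.deg_le_deg hp
      rw [deg_add_single] at h3
      simp only [Nat.cast_zero] at hdeg
      linarith
    rw [hAB']
    exact index_formula_of_le C hm hB₀ hB
  | succ k ih =>
    intro A B hAB hB hdeg
    have hne : A ≠ B := by
      rintro rfl
      simp only [sub_self] at hdeg
      omega
    obtain ⟨p, hp⟩ := exists_add_single_le hAB hne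
    refine index_formula_step C A p (ih (A + Finsupp.single p 1) B hp hB ?_)
    rw [deg_add_single]
    push_cast at hdeg
    linarith

/-- **The index formula**: `𝔸 / (𝔸(A) + F)` is finite-dimensional of dimension
`ℓ(A) - deg A + m`. -/
theorem index_formula (C : Curve K F X) {m : ℤ}
    (hm : ∀ D : X →₀ ℤ, PreCurve.deg D - (Module.finrank K (C.toPreCurve.L D) : ℤ) ≤ m)
    {B₀ : X →₀ ℤ} (hB₀ : PreCurve.deg B₀ - (Module.finrank K (C.toPreCurve.L B₀) : ℤ) = m)
    (A : X →₀ ℤ) :
    Module.Finite K (Ad C.toPreCurve ⧸ NA C.toPreCurve A) ∧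
      (Module.finrank K (Ad C.toPreCurve ⧸ NA C.toPreCurve A) : ℤ)
        = Module.finrank K (C.toPreCurve.L A) - PreCurve.deg A + m := by
  have hAB : A ≤ A ⊔ B₀ := le_sup_left
  have hB : B₀ ≤ A ⊔ B₀ := le_sup_right
  have h0 : 0 ≤ PreCurve.deg (A ⊔ B₀) - PreCurve.deg A := by
    have := PreCurve.deg_le_deg hAB
    linarith
  exact index_formula_aux C hm hB₀ (PreCurve.deg (A ⊔ B₀) - PreCurve.deg A).toNat A (A ⊔ B₀)
    hAB hB (Int.toNat_of_nonneg h0).symm

end Fermat.Agent.RRL.Adl
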