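import Fermat.Agent.RR.Defs

/-!
# Local lemmas for the adelic half of the Riemann–Roch package

Everything here lives in the sub-namespace `Fermat.Agent.RRL.Adl`.
-/

set_option autoImplicit false

namespace Fermat.Agent.RRL.Adl

variable {K F X : Type*} [Field K] [Field F] [Algebra K F]

/-! ### degree -/

theorem deg_add (A B : X →₀ ℤ) : PreCurve.deg (A + B) = PreCurve.deg A + PreCurve.deg B := by
  unfold PreCurve.deg
  exact Finsupp.sum_add_index' (fun _ => rfl) (fun _ _ _ => rfl)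

theorem deg_single (p : X) (n : ℤ) : PreCurve.deg (Finsupp.single p n) = n := by
  unfold PreCurve.deg
  exact Finsupp.sum_single_index rfl

theorem deg_zero : PreCurve.deg (0 : X →₀ ℤ) = 0 := by
  unfold PreCurve.deg
  exact Finsupp.sum_zero_index

theorem deg_add_single (A : X →₀ ℤ) (p : X) (n : ℤ) :
    PreCurve.deg (A + Finsupp.single p n) = PreCurve.deg A + n := by
  rw [deg_add, deg_single]

/-! ### basic properties of `ord` -/

theorem ord_one (C : PreCurve K F X) (p : X) : C.ord p 1 = 0 := by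
  have h := C.ord_mul p (one_ne_zero : (1 : F) ≠ 0) one_ne_zero
  rw [mul_one] at h
  linarith

theorem ord_inv (C : PreCurve K F X) (p : X) {x : F} (hx : x ≠ 0) :
    C.ord p x⁻¹ = - C.ord p x := by
  have h := C.ord_mul p hx (inv_ne_zero hx)
  rw [mul_inv_cancel₀ hx, ord_one] at h
  linarith

theorem ord_neg (C : PreCurve K F X) (p : X) {x : F} (hx : x ≠ 0) :
    C.ord p (-x) = C.ord p x := by
  have h1 : (algebraMap K F (-1)) ≠ 0 := by simp
  have h := C.ord_mul p h1 hx
  rw [C.ord_algebraMap p (by norm_num : (-1 : K) ≠ 0)] at h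
  simpa using h

theorem ord_smul (C : PreCurve K F X) (p : X) {c : K} (hc : c ≠ 0) {x : F} (hx : x ≠ 0) :
    C.ord p (c • x) = C.ord p x := by
  have hc' : algebraMap K F c ≠ 0 := by simpa using hc
  rw [Algebra.smul_def, C.ord_mul p hc' hx, C.ord_algebraMap p hc, zero_add]

theorem ord_pow (C : PreCurve K F X) (p : X) {x : F} (hx : x ≠ 0) (n : ℕ) :
    C.ord p (x ^ n) = n * C.ord p x := by
  induction n with
  | zero => simp [ord_one]
  | succ k ih =>
    rw [pow_succ, C.ord_mul p (pow_ne_zero k hx) hx, ih]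
    push_cast
    ring

theorem ord_zpow (C : PreCurve K F X) (p : X) {x : F} (hx : x ≠ 0) (n : ℤ) :
    C.ord p (x ^ n) = n * C.ord p x := by
  obtain ⟨k, rfl | rfl⟩ := n.eq_nat_or_neg
  · rw [zpow_natCast, ord_pow C p hx]
  · rw [zpow_neg, zpow_natCast, ord_inv C p (pow_ne_zero k hx), ord_pow C p hx]
    ring

/-- On a `Curve` there are functions of every prescribed order at a given point. -/
theorem exists_ord_eq (C : Curve K F X) (p : X) (n : ℤ) :
    ∃ y : F, y ≠ 0 ∧ C.ord p y = n := by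
  obtain ⟨t, ht, ht1⟩ := C.exists_uniformizer p
  refine ⟨t ^ n, zpow_ne_zero n ht, ?_⟩
  rw [ord_zpow C.toPreCurve p ht, ht1, mul_one]

/-! ### the predicate "`x = 0` or `n ≤ ord p x`" -/

/-- `x = 0` or `n ≤ ord p x`. -/
def OrdGE (C : PreCurve K F X) (p : X) (n : ℤ) (x : F) : Prop := x = 0 ∨ n ≤ C.ord p x

variable {C : PreCurve K F X} {p : X} {m n : ℤ} {x y : F}

theorem ordGE_zero (C : PreCurve K F X) (p : X) (n : ℤ) : OrdGE C p n 0 := Or.inl rfl

theorem ordGE_iff (hx : x ≠ 0) : OrdGE C p n x ↔ n ≤ C.ord p x := by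
  simp [OrdGE, hx]

theorem OrdGE.le (h : OrdGE C p n x) (hx : x ≠ 0) : n ≤ C.ord p x := (ordGE_iff hx).1 h

theorem OrdGE.mono (h : OrdGE C p n x) (hmn : m ≤ n) : OrdGE C p m x :=
  h.imp id fun h' => hmn.trans h'

theorem OrdGE.add (hx : OrdGE C p n x) (hy : OrdGE C p n y) : OrdGE C p n (x + y) := by
  by_cases hx0 : x = 0
  · simpa [hx0] using hy
  by_cases hy0 : y = 0
  · simpa [hy0] using hx
  by_cases hxy : x + y = 0
  · exact Or.inl hxy
  exact Or.inr (le_trans (le_min (hx.le hx0) (hy.le hy0)) (C.ord_add p hx0 hy0 hxy))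

theorem OrdGE.neg (hx : OrdGE C p n x) : OrdGE C p n (-x) := by
  by_cases hx0 : x = 0
  · simp [hx0, ordGE_zero]
  exact Or.inr (by rw [ord_neg C p hx0]; exact hx.le hx0)

theorem OrdGE.sub (hx : OrdGE C p n x) (hy : OrdGE C p n y) : OrdGE C p n (x - y) := by
  rw [sub_eq_add_neg]
  exact hx.add hy.neg

theorem OrdGE.mul (hx : OrdGE C p m x) (hy : OrdGE C p n y) : OrdGE C p (m + n) (x * y) := by
  by_cases hx0 : x = 0
  · simp [hx0, ordGE_zero]
  by_cases hy0 : y = 0
  · simp [hy0, ordGE_zero]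
  refine Or.inr ?_
  rw [C.ord_mul p hx0 hy0]
  exact add_le_add (hx.le hx0) (hy.le hy0)

theorem ordGE_algebraMap (C : PreCurve K F X) (p : X) (c : K) :
    OrdGE C p 0 (algebraMap K F c) := by
  by_cases hc : c = 0
  · simp [hc, ordGE_zero]
  exact Or.inr (C.ord_algebraMap p hc).ge

theorem OrdGE.smul (c : K) (hx : OrdGE C p n x) : OrdGE C p n (c • x) := by
  rw [Algebra.smul_def]
  simpa using (ordGE_algebraMap C p c).mul hx

theorem not_ordGE_of_lt (hx : x ≠ 0) (h : C.ord p x < n) : ¬ OrdGE C p n x := by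
  rw [ordGE_iff hx]
  exact not_le.2 h

/-- The "ball" `{x | x = 0 ∨ n ≤ ord p x}` as a `K`-submodule. -/
def ball (C : PreCurve K F X) (p : X) (n : ℤ) : Submodule K F where
  carrier := {x | OrdGE C p n x}
  zero_mem' := ordGE_zero C p n
  add_mem' := fun hx hy => OrdGE.add hx hy
  smul_mem' := fun c _ hx => OrdGE.smul c hx

theorem mem_ball : x ∈ ball C p n ↔ OrdGE C p n x := Iff.rfl

/-- Each quotient `ball n / ball (n+1)` is at most one-dimensional. -/
theorem local_step (hx : OrdGE C p n x) (hy : y ≠ 0) (hyn : C.ord p y = n) :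
    ∃ c : K, OrdGE C p (n + 1) (x - c • y) := by
  by_cases hx0 : x = 0
  · exact ⟨0, by simp [hx0, ordGE_zero]⟩
  have hxy : x * y⁻¹ ≠ 0 := mul_ne_zero hx0 (inv_ne_zero hy)
  have h0 : 0 ≤ C.ord p (x * y⁻¹) := by
    rw [C.ord_mul p hx0 (inv_ne_zero hy), ord_inv C p hy, hyn]
    have := hx.le hx0
    linarith
  obtain ⟨c, hc | hc⟩ := C.exists_residue p hxy h0
  · refine ⟨c, Or.inl ?_⟩
    have : x = algebraMap K F c * y := by
      rw [← hc, mul_assoc, inv_mul_cancel₀ hy, mul_one]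
    rw [Algebra.smul_def, ← this, sub_self]
  · refine ⟨c, ?_⟩
    by_cases hz : x * y⁻¹ - algebraMap K F c = 0
    · refine Or.inl ?_
      have h1 : x * y⁻¹ = algebraMap K F c := sub_eq_zero.1 hz
      have : x = algebraMap K F c * y := by
        rw [← h1, mul_assoc, inv_mul_cancel₀ hy, mul_one]
      rw [Algebra.smul_def, ← this, sub_self]
    · have h2 : x - c • y = (x * y⁻¹ - algebraMap K F c) * y := by
        rw [Algebra.smul_def, sub_mul, mul_assoc, inv_mul_cancel₀ hy, mul_one]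
      rw [h2]
      refine Or.inr ?_
      rw [C.ord_mul p hz hy, hyn]
      linarith

/-- Membership in `L D` via `OrdGE`. -/
theorem mem_L_iff (C : PreCurve K F X) (D : X →₀ ℤ) (x : F) :
    x ∈ C.L D ↔ ∀ p : X, OrdGE C p (-D p) x := by
  rw [PreCurve.mem_L]
  constructor
  · rintro (h | h) p
    · exact Or.inl h
    · exact Or.inr (h p)
  · intro h
    by_cases hx : x = 0
    · exact Or.inl hx
    · exact Or.inr fun p => (h p).le hx

theorem L_mono (C : PreCurve K F X) {A B : X →₀ ℤ} (h : A ≤ B) : C.L A ≤ C.L B := by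
  intro x hx
  rw [mem_L_iff] at hx ⊢
  intro p
  exact (hx p).mono (neg_le_neg (h p))

end Fermat.Agent.RRL.Adl
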