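import Fermat.Agent.RR.AdlLocal

/-!
# Adeles (repartitions) of a `PreCurve`

`Ad C` is the space of adeles `α : X → F` (almost all components have no pole), an `F`-vector
space; `adeleOf C A` is the `K`-subspace `𝔸(A)`, `principal C` the diagonal copy of `F`,
`NA C A = 𝔸(A) + F`.
-/

set_option autoImplicit false

namespace Fermat.Agent.RRL.Adl

variable {K F X : Type*} [Field K] [Field F] [Algebra K F]

/-- The adeles, as an `F`-submodule of `X → F`. -/
def adele (C : PreCurve K F X) : Submodule F (X → F) where
  carrier := {α | {p | ¬ OrdGE C p 0 (α p)}.Finite}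
  zero_mem' := by
    have : {p | ¬ OrdGE C p 0 ((0 : X → F) p)} = ∅ := by
      ext p
      simp [ordGE_zero]
    show Set.Finite _
    rw [this]
    exact Set.finite_empty
  add_mem' := by
    intro α β hα hβ
    refine (hα.union hβ).subset ?_
    intro p hp
    by_contra hcon
    simp only [Set.mem_union, Set.mem_ofPred_eq, not_or, not_not] at hcon
    exact hp (hcon.1.add hcon.2)
  smul_mem' := by
    intro c α hα
    by_cases hc : c = 0
    · have : {p | ¬ OrdGE C p 0 ((c • α) p)} = ∅ := by
        ext p
        simp [hc, ordGE_zero]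
      show Set.Finite _
      rw [this]
      exact Set.finite_empty
    refine (hα.union (C.finite_support hc)).subset ?_
    intro p hp
    by_contra hcon
    simp only [Set.mem_union, Set.mem_ofPred_eq, not_or, not_not] at hcon
    apply hp
    have h1 : OrdGE C p 0 c := Or.inr hcon.2.ge
    simpa using h1.mul hcon.1

/-- The type of adeles. -/
abbrev Ad (C : PreCurve K F X) : Type _ := ↥(adele C)

theorem ad_finite (C : PreCurve K F X) (α : Ad C) : {p | ¬ OrdGE C p 0 (α.1 p)}.Finite := α.2

/-- `𝔸(A)`: adeles `α` with `ord_p α_p ≥ -A p` for all `p`. -/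
def adeleOf (C : PreCurve K F X) (A : X →₀ ℤ) : Submodule K (Ad C) where
  carrier := {α | ∀ p, OrdGE C p (-A p) (α.1 p)}
  zero_mem' := fun p => ordGE_zero C p _
  add_mem' := fun hα hβ p => (hα p).add (hβ p)
  smul_mem' := fun c _ hα p => (hα p).smul c

theorem mem_adeleOf (C : PreCurve K F X) (A : X →₀ ℤ) (α : Ad C) :
    α ∈ adeleOf C A ↔ ∀ p, OrdGE C p (-A p) (α.1 p) := Iff.rfl

/-- The diagonal embedding `F → 𝔸`. -/
def diag (C : PreCurve K F X) : F →ₗ[F] Ad C where
  toFun x := ⟨fun _ => x, by
    by_cases hx : x = 0
    · have : {p | ¬ OrdGE C p 0 x} = ∅ := by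
        ext p
        simp [hx, ordGE_zero]
      show Set.Finite _
      rw [this]
      exact Set.finite_empty
    · refine (C.finite_support hx).subset ?_
      intro p hp
      by_contra hcon
      simp only [Set.mem_ofPred_eq, not_not] at hcon
      exact hp (Or.inr hcon.ge)⟩
  map_add' _ _ := rfl
  map_smul' _ _ := rfl

@[simp] theorem diag_apply (C : PreCurve K F X) (x : F) (p : X) : (diag C x).1 p = x := rfl

/-- The diagonal copy of `F` in the adeles, as a `K`-subspace. -/
def principal (C : PreCurve K F X) : Submodule K (Ad C) :=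
  LinearMap.range ((diag C).restrictScalars K)

theorem mem_principal (C : PreCurve K F X) (α : Ad C) :
    α ∈ principal C ↔ ∃ x : F, diag C x = α := Iff.rfl

open Classical in
/-- The adele with component `x` at `p` and `0` elsewhere. -/
noncomputable def single (C : PreCurve K F X) (p : X) : F →ₗ[F] Ad C where
  toFun x := ⟨fun q => if q = p then x else 0, by
    refine (Set.finite_singleton p).subset ?_
    intro q hq
    by_contra hcon
    simp only [Set.mem_singleton_iff] at hcon
    apply hq
    show OrdGE C q 0 (if q = p then x else 0)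
    rw [if_neg hcon]
    exact ordGE_zero C q 0⟩
  map_add' x y := by
    apply Subtype.ext
    funext q
    show (if q = p then x + y else 0) = (if q = p then x else 0) + (if q = p then y else 0)
    split_ifs <;> simp
  map_smul' c x := by
    apply Subtype.ext
    funext q
    show (if q = p then c • x else 0) = c • (if q = p then x else 0)
    split_ifs <;> simp

open Classical in
theorem single_apply_same (C : PreCurve K F X) (p : X) (x : F) : (single C p x).1 p = x := by
  show (if p = p then x else 0) = x
  rw [if_pos rfl]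

open Classical in
theorem single_apply_ne (C : PreCurve K F X) {p q : X} (h : q ≠ p) (x : F) :
    (single C p x).1 q = 0 := by
  show (if q = p then x else 0) = 0
  rw [if_neg h]

/-- `𝔸(A) + F`. -/
def NA (C : PreCurve K F X) (A : X →₀ ℤ) : Submodule K (Ad C) := adeleOf C A ⊔ principal C

theorem smul_apply (C : PreCurve K F X) (x : F) (α : Ad C) (p : X) : (x • α).1 p = x * α.1 p := rfl

theorem ksmul_apply (C : PreCurve K F X) (c : K) (α : Ad C) (p : X) :
    (c • α).1 p = c • α.1 p := rfl

theorem add_apply (C : PreCurve K F X) (α β : Ad C) (p : X) : (α + β).1 p = α.1 p + β.1 p := rfl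

theorem sub_apply (C : PreCurve K F X) (α β : Ad C) (p : X) : (α - β).1 p = α.1 p - β.1 p := rfl

/-! ### Structural lemmas -/

theorem adeleOf_mono (C : PreCurve K F X) {A B : X →₀ ℤ} (h : A ≤ B) :
    adeleOf C A ≤ adeleOf C B := by
  intro α hα p
  exact (hα p).mono (neg_le_neg (h p))

theorem NA_mono (C : PreCurve K F X) {A B : X →₀ ℤ} (h : A ≤ B) : NA C A ≤ NA C B :=
  sup_le_sup_right (adeleOf_mono C h) _

theorem adeleOf_le_NA (C : PreCurve K F X) (A : X →₀ ℤ) : adeleOf C A ≤ NA C A := le_sup_left

theorem principal_le_NA (C : PreCurve K F X) (A : X →₀ ℤ) : principal C ≤ NA C A := le_sup_right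

theorem diag_mem_principal (C : PreCurve K F X) (x : F) : diag C x ∈ principal C := ⟨x, rfl⟩

/-- Every adele lies in some `𝔸(B)`, with `B` above any prescribed divisor. -/
theorem exists_ge_mem_adeleOf (C : PreCurve K F X) (A₀ : X →₀ ℤ) (α : Ad C) :
    ∃ B : X →₀ ℤ, A₀ ≤ B ∧ α ∈ adeleOf C B := by
  classical
  set S : Finset X := (ad_finite C α).toFinset ∪ A₀.support with hS
  refine ⟨Finsupp.onFinset S
    (fun p => if p ∈ S then max (A₀ p) (-C.ord p (α.1 p)) else 0) ?_, ?_, ?_⟩
  · intro p hp
    by_contra h
    exact hp (if_neg h)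
  · intro p
    rw [Finsupp.onFinset_apply]
    by_cases hp : p ∈ S
    · rw [if_pos hp]
      exact le_max_left _ _
    · rw [if_neg hp]
      have : p ∉ A₀.support := fun h => hp (Finset.mem_union_right _ h)
      rw [Finsupp.notMem_support_iff] at this
      rw [this]
  · refine (mem_adeleOf C _ α).2 fun p => ?_
    rw [Finsupp.onFinset_apply]
    by_cases hp : p ∈ S
    · rw [if_pos hp]
      by_cases h0 : α.1 p = 0
      · exact Or.inl h0
      · refine Or.inr ?_
        have := le_max_right (A₀ p) (-C.ord p (α.1 p))
        linarith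
    · rw [if_neg hp]
      have : p ∉ (ad_finite C α).toFinset := fun h => hp (Finset.mem_union_left _ h)
      rw [Set.Finite.mem_toFinset] at this
      simp only [Set.mem_ofPred_eq, not_not] at this
      simpa using this

theorem diag_mem_adeleOf_iff (C : PreCurve K F X) (A : X →₀ ℤ) (x : F) :
    diag C x ∈ adeleOf C A ↔ x ∈ C.L A := by
  rw [mem_L_iff]
  rfl

theorem single_mem_adeleOf (C : PreCurve K F X) (A : X →₀ ℤ) (p : X) {y : F}
    (hy : OrdGE C p (-A p) y) : single C p y ∈ adeleOf C A := by
  refine (mem_adeleOf C _ _).2 fun q => ?_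
  by_cases hq : q = p
  · rw [hq, single_apply_same]
    exact hy
  · rw [single_apply_ne C hq]
    exact ordGE_zero C q _

theorem smul_diag (C : PreCurve K F X) (x y : F) : x • diag C y = diag C (x * y) := rfl

theorem smul_single (C : PreCurve K F X) (p : X) (x y : F) :
    x • single C p y = single C p (x * y) := by
  apply Subtype.ext
  funext q
  rw [smul_apply]
  by_cases hq : q = p
  · rw [hq, single_apply_same, single_apply_same]
  · rw [single_apply_ne C hq, single_apply_ne C hq, mul_zero]

/-- `L(D) · 𝔸(E) ⊆ 𝔸(D + E)`. -/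
theorem smul_mem_adeleOf (C : PreCurve K F X) {D E : X →₀ ℤ} {x : F} (hx : x ∈ C.L D)
    {α : Ad C} (hα : α ∈ adeleOf C E) : x • α ∈ adeleOf C (D + E) := by
  rw [mem_L_iff] at hx
  refine (mem_adeleOf C _ _).2 fun p => ?_
  have h := (hx p).mul (hα p)
  rw [smul_apply]
  have e : -((D + E : X →₀ ℤ) p) = -D p + -E p := by
    rw [Finsupp.add_apply]
    ring
  rw [e]
  exact h

theorem smul_mem_principal (C : PreCurve K F X) (x : F) {α : Ad C} (hα : α ∈ principal C) :
    x • α ∈ principal C := by
  obtain ⟨y, rfl⟩ := hα
  exact ⟨x * y, rfl⟩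

/-- `L(D) · (𝔸(E) + F) ⊆ 𝔸(D + E) + F`. -/
theorem smul_mem_NA (C : PreCurve K F X) {D E : X →₀ ℤ} {x : F} (hx : x ∈ C.L D)
    {α : Ad C} (hα : α ∈ NA C E) : x • α ∈ NA C (D + E) := by
  obtain ⟨β, hβ, γ, hγ, rfl⟩ := Submodule.mem_sup.1 hα
  rw [smul_add]
  exact Submodule.add_mem_sup (smul_mem_adeleOf C hx hβ) (smul_mem_principal C x hγ)

/-- One-point step for adeles: modulo `𝔸(A)`, every element of `𝔸(A + p)` is a `K`-multiple of
`single p y`, for any `y` of exact order `-A p - 1` at `p`. -/
theorem exists_sub_smul_single_mem (C : PreCurve K F X) (A : X →₀ ℤ) (p : X) {y : F}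
    (hy : y ≠ 0) (hyp : C.ord p y = -A p - 1) {α : Ad C}
    (hα : α ∈ adeleOf C (A + Finsupp.single p 1)) :
    ∃ c : K, α - c • single C p y ∈ adeleOf C A := by
  classical
  have hαp : OrdGE C p (-A p - 1) (α.1 p) := by
    have := hα p
    simp only [Finsupp.add_apply, Finsupp.single_eq_same] at this
    have e : -(A p + 1) = -A p - 1 := by ring
    rwa [e] at this
  obtain ⟨c, hc⟩ := local_step hαp hy hyp
  refine ⟨c, (mem_adeleOf C _ _).2 fun q => ?_⟩
  rw [sub_apply, ksmul_apply]
  by_cases hq : q = p
  · rw [hq, single_apply_same]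
    have e : -A p - 1 + 1 = -A p := by ring
    rwa [e] at hc
  · rw [single_apply_ne C hq, smul_zero, sub_zero]
    have := hα q
    simpa [Finsupp.single_apply, Ne.symm hq] using this

theorem NA_add_single (C : PreCurve K F X) (A : X →₀ ℤ) (p : X) {y : F}
    (hy : y ≠ 0) (hyp : C.ord p y = -A p - 1) :
    NA C (A + Finsupp.single p 1) = NA C A ⊔ Submodule.span K {single C p y} := by
  classical
  apply le_antisymm
  · refine sup_le ?_ (le_sup_of_le_left (principal_le_NA C A))
    intro α hα
    obtain ⟨c, hc⟩ := exists_sub_smul_single_mem C A p hy hyp hα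
    have : α = (α - c • single C p y) + c • single C p y := (sub_add_cancel _ _).symm
    rw [this]
    exact Submodule.add_mem_sup (adeleOf_le_NA C A hc)
      (Submodule.smul_mem _ c (Submodule.mem_span_singleton_self _))
  · refine sup_le (NA_mono C ?_) ?_
    · intro q
      by_cases hq : q = p
      · rw [hq]
        simp
      · simp [Ne.symm hq]
    · rw [Submodule.span_le, Set.singleton_subset_iff]
      apply adeleOf_le_NA
      apply single_mem_adeleOf
      refine Or.inr ?_
      simp only [Finsupp.add_apply, Finsupp.single_eq_same]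
      rw [hyp]
      linarith

/-- `single p y ∈ 𝔸(A) + F` iff `L(A + p)` is strictly bigger than `L(A)`. -/
theorem single_mem_NA_iff (C : PreCurve K F X) (A : X →₀ ℤ) (p : X) {y : F}
    (hy : y ≠ 0) (hyp : C.ord p y = -A p - 1) :
    single C p y ∈ NA C A ↔ ∃ x : F, x ∈ C.L (A + Finsupp.single p 1) ∧ x ∉ C.L A := by
  classical
  constructor
  · intro h
    obtain ⟨β, hβ, γ, ⟨x, rfl⟩, hsum⟩ := Submodule.mem_sup.1 h
    have hval : ∀ q, β.1 q + x = (single C p y).1 q := fun q => by
      rw [← hsum]
      rfl
    refine ⟨x, ?_, ?_⟩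
    · rw [mem_L_iff]
      intro q
      by_cases hq : q = p
      · rw [hq]
        have h1 := hval p
        rw [single_apply_same] at h1
        have hx : x = y - β.1 p := by
          rw [← h1]
          ring
        rw [hx]
        simp only [Finsupp.add_apply, Finsupp.single_eq_same]
        have e : -(A p + 1) = -A p - 1 := by ring
        rw [e]
        have hy1 : OrdGE C p (-A p - 1) y := Or.inr hyp.ge
        exact hy1.sub ((hβ p).mono (by linarith))
      · have h1 := hval q
        rw [single_apply_ne C hq] at h1
        have hx : x = - β.1 q := by linear_combination h1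
        rw [hx]
        have := (hβ q).neg
        simpa [Finsupp.single_apply, Ne.symm hq] using this
    · intro hx
      rw [mem_L_iff] at hx
      have h1 := hval p
      rw [single_apply_same] at h1
      have : OrdGE C p (-A p) y := by
        rw [← h1]
        exact (hβ p).add (hx p)
      exact not_ordGE_of_lt hy (by rw [hyp]; linarith) this
  · rintro ⟨x, hx, hx'⟩
    rw [mem_L_iff] at hx
    have hxq : ∀ q, q ≠ p → OrdGE C q (-A q) x := by
      intro q hq
      have := hx q
      simpa [Finsupp.single_apply, Ne.symm hq] using this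
    have hxp : OrdGE C p (-A p - 1) x := by
      have := hx p
      simp only [Finsupp.add_apply, Finsupp.single_eq_same] at this
      have e : -(A p + 1) = -A p - 1 := by ring
      rwa [e] at this
    obtain ⟨c, hc⟩ := local_step hxp hy hyp
    have e : -A p - 1 + 1 = -A p := by ring
    rw [e] at hc
    have hc0 : c ≠ 0 := by
      rintro rfl
      apply hx'
      rw [mem_L_iff]
      intro q
      by_cases hq : q = p
      · rw [hq]
        simpa using hc
      · exact hxq q hq
    have hβ : diag C x - c • single C p y ∈ adeleOf C A := by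
      refine (mem_adeleOf C _ _).2 fun q => ?_
      rw [sub_apply, ksmul_apply, diag_apply]
      by_cases hq : q = p
      · rw [hq, single_apply_same]
        exact hc
      · rw [single_apply_ne C hq, smul_zero, sub_zero]
        exact hxq q hq
    have h1 : c • single C p y ∈ NA C A := by
      have : c • single C p y = diag C x - (diag C x - c • single C p y) := by abel
      rw [this]
      exact Submodule.sub_mem _ (principal_le_NA C A (diag_mem_principal C x))
        (adeleOf_le_NA C A hβ)
    have h2 : single C p y = c⁻¹ • (c • single C p y) := by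
      rw [smul_smul, inv_mul_cancel₀ hc0, one_smul]
    rw [h2]
    exact Submodule.smul_mem _ _ h1

end Fermat.Agent.RRL.Adl
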