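import Fermat.Agent.RR.AdlIndex

/-!
# The differential of a residue system and duality

`omega R : 𝔸 → K`, `α ↦ Σ_p res_p (α_p)`, vanishes on `𝔸(W) + F`.  Every `K`-linear functional
on `𝔸` vanishing on some `𝔸(A) + F` is of the form `α ↦ omega R (x • α)` with `x ∈ L(W - A)`,
whence `dim 𝔸 / (𝔸(A) + F) = ℓ(W - A)`.
-/

set_option autoImplicit false

namespace Fermat.Agent.RRL.Adl

variable {K F X : Type*} [Field K] [Field F] [Algebra K F]

section omega

variable {C : PreCurve K F X} {W : X →₀ ℤ}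

theorem res_support_finite (R : ResidueSystem C W) (α : Ad C) :
    (Function.support fun p => R.res p (α.1 p)).Finite := by
  refine ((ad_finite C α).union W.hasFiniteSupport).subset ?_
  intro p hp
  by_contra hcon
  simp only [Set.mem_union, Set.mem_ofPred_eq, not_or, not_not, Function.mem_support] at hcon
  apply hp
  obtain ⟨h1, h2⟩ := hcon
  by_cases h0 : α.1 p = 0
  · show R.res p (α.1 p) = 0
    rw [h0, map_zero]
  · exact R.res_eq_zero p h0 (by rw [h2]; simpa using h1.le h0)

/-- `ω(α) = Σ_p res_p(α_p)`. -/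
noncomputable def omega (R : ResidueSystem C W) : Ad C →ₗ[K] K where
  toFun α := ∑ᶠ p, R.res p (α.1 p)
  map_add' α β := by
    have := finsum_add_distrib (res_support_finite R α) (res_support_finite R β)
    rw [← this]
    refine finsum_congr fun p => ?_
    rw [add_apply, map_add]
  map_smul' c α := by
    rw [RingHom.id_apply, smul_finsum' c (res_support_finite R α)]
    refine finsum_congr fun p => ?_
    rw [ksmul_apply, map_smul]

theorem omega_apply (R : ResidueSystem C W) (α : Ad C) :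
    omega R α = ∑ᶠ p, R.res p (α.1 p) := rfl

theorem omega_single (R : ResidueSystem C W) (p : X) (y : F) :
    omega R (single C p y) = R.res p y := by
  rw [omega_apply, finsum_eq_single _ p, single_apply_same]
  intro q hq
  rw [single_apply_ne C hq, map_zero]

theorem omega_diag (R : ResidueSystem C W) (x : F) : omega R (diag C x) = 0 :=
  R.sum_res x

theorem omega_eq_zero_of_mem (R : ResidueSystem C W) {α : Ad C} (h : α ∈ adeleOf C W) :
    omega R α = 0 := by
  rw [omega_apply]
  refine finsum_eq_zero_of_forall_eq_zero fun p => ?_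
  by_cases h0 : α.1 p = 0
  · rw [h0, map_zero]
  · exact R.res_eq_zero p h0 ((h p).le h0)

theorem NA_le_ker_omega (R : ResidueSystem C W) : NA C W ≤ LinearMap.ker (omega R) := by
  refine sup_le (fun α hα => ?_) ?_
  · exact LinearMap.mem_ker.2 (omega_eq_zero_of_mem R hα)
  · rintro α ⟨x, rfl⟩
    exact LinearMap.mem_ker.2 (omega_diag R x)

end omega

section twist

variable {C : PreCurve K F X}

/-- The functional `α ↦ ω (x • α)`. -/
def twist (ω : Ad C →ₗ[K] K) (x : F) : Ad C →ₗ[K] K :=
  ω ∘ₗ ((LinearMap.lsmul F (Ad C) x).restrictScalars K)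

@[simp] theorem twist_apply (ω : Ad C →ₗ[K] K) (x : F) (α : Ad C) :
    twist ω x α = ω (x • α) := rfl

/-- `x ↦ twist ω x` as a `K`-linear map. -/
def twistL (ω : Ad C →ₗ[K] K) : F →ₗ[K] (Ad C →ₗ[K] K) where
  toFun x := twist ω x
  map_add' x y := by
    ext α
    simp [add_smul]
  map_smul' c x := by
    ext α
    simp [smul_assoc]

@[simp] theorem twistL_apply (ω : Ad C →ₗ[K] K) (x : F) : twistL ω x = twist ω x := rfl

theorem twist_twist (ω : Ad C →ₗ[K] K) (x y : F) : twist (twist ω x) y = twist ω (x * y) := by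
  ext α
  simp [mul_smul, smul_comm x y]

theorem twist_one (ω : Ad C →ₗ[K] K) : twist ω 1 = ω := by
  ext α
  simp

/-- If `ω` vanishes on `𝔸(A) + F` and `x ∈ L(D)` then `x ω` vanishes on `𝔸(A - D) + F`. -/
theorem NA_le_ker_twist {ω : Ad C →ₗ[K] K} {A D : X →₀ ℤ} (hω : NA C A ≤ LinearMap.ker ω)
    {x : F} (hx : x ∈ C.L D) : NA C (A - D) ≤ LinearMap.ker (twist ω x) := by
  intro α hα
  have h := smul_mem_NA C hx hα
  rw [add_sub_cancel] at h
  rw [LinearMap.mem_ker, twist_apply]
  exact LinearMap.mem_ker.1 (hω h)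

theorem twist_ne_zero {ω : Ad C →ₗ[K] K} (hω : ω ≠ 0) {x : F} (hx : x ≠ 0) : twist ω x ≠ 0 := by
  intro h
  apply hω
  ext α
  have h1 : twist ω x (x⁻¹ • α) = 0 := by rw [h]; rfl
  rw [twist_apply, smul_smul, mul_inv_cancel₀ hx, one_smul] at h1
  rw [h1]
  rfl

end twist

section duality

theorem omega_ne_zero [Nonempty X] (C : Curve K F X) {W : X →₀ ℤ}
    (R : ResidueSystem C.toPreCurve W) : omega R ≠ 0 := by
  intro h
  obtain ⟨p⟩ := ‹Nonempty X›
  obtain ⟨y, hy, hyp⟩ := exists_ord_eq C p (-W p - 1)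
  have h1 := omega_single R p y
  rw [h] at h1
  exact R.res_ne_zero p hy hyp h1.symm

/-- If `x ω₀` vanishes on `𝔸(A)` then `x ∈ L(W - A)`. -/
theorem mem_L_of_le_ker_twist (C : Curve K F X) {W : X →₀ ℤ}
    (R : ResidueSystem C.toPreCurve W) (A : X →₀ ℤ) {x : F}
    (h : adeleOf C.toPreCurve A ≤ LinearMap.ker (twist (omega R) x)) :
    x ∈ C.toPreCurve.L (W - A) := by
  by_cases hx : x = 0
  · rw [hx]
    exact Submodule.zero_mem _
  refine (C.toPreCurve.mem_L _ x).2 (Or.inr fun p => ?_)
  by_contra hcon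
  push Not at hcon
  rw [Finsupp.sub_apply] at hcon
  obtain ⟨y, hy, hyp⟩ := exists_ord_eq C p (-W p - 1 - C.ord p x)
  have hmem : single C.toPreCurve p y ∈ adeleOf C.toPreCurve A := by
    apply single_mem_adeleOf
    refine Or.inr ?_
    rw [hyp]
    linarith
  have h1 := LinearMap.mem_ker.1 (h hmem)
  rw [twist_apply, smul_single, omega_single] at h1
  refine R.res_ne_zero p (mul_ne_zero hx hy) ?_ h1
  rw [C.ord_mul p hx hy, hyp]
  ring

end duality

end Fermat.Agent.RRL.Adl
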