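import Fermat.Agent.RR.Basic

/-!
# Weak approximation on a `Curve`

Each point `p` of a curve gives the real absolute value `x ↦ 2 ^ (-ord p x)`.  These absolute
values are nontrivial and pairwise inequivalent, so Mathlib's weak approximation theorem
`AbsoluteValue.denseRange_algebraMap_pi` applies.
-/

set_option autoImplicit false

namespace Fermat.Agent.RRL

namespace Curve

variable {K F X : Type*} [Field K] [Field F] [Algebra K F] (C : Curve K F X)

/-- The absolute value `x ↦ 2 ^ (-ord p x)` attached to a point. -/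
noncomputable def absv (p : X) : AbsoluteValue F ℝ where
  toFun x := open Classical in if x = 0 then 0 else (2 : ℝ) ^ (-C.ord p x)
  map_mul' x y := by
    classical
    by_cases hx : x = 0
    · simp [hx]
    by_cases hy : y = 0
    · simp [hy]
    simp only [mul_eq_zero, hx, hy, or_self, if_false]
    rw [C.ord_mul p hx hy, neg_add, zpow_add₀ (by norm_num : (2 : ℝ) ≠ 0)]
  nonneg' x := by
    classical
    show (0 : ℝ) ≤ if x = 0 then 0 else (2 : ℝ) ^ (-C.ord p x)
    split_ifs
    · exact le_rfl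
    · positivity
  eq_zero' x := by
    classical
    show (if x = 0 then (0 : ℝ) else (2 : ℝ) ^ (-C.ord p x)) = 0 ↔ x = 0
    constructor
    · intro h
      by_contra hx
      rw [if_neg hx] at h
      exact (zpow_ne_zero _ (by norm_num : (2 : ℝ) ≠ 0)) h
    · intro h
      rw [if_pos h]
  add_le' x y := by
    classical
    show (if x + y = 0 then (0 : ℝ) else (2 : ℝ) ^ (-C.ord p (x + y)))
      ≤ (if x = 0 then (0 : ℝ) else (2 : ℝ) ^ (-C.ord p x))
        + (if y = 0 then (0 : ℝ) else (2 : ℝ) ^ (-C.ord p y))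
    by_cases hx : x = 0
    · simp [hx]
    by_cases hy : y = 0
    · simp [hy]
    by_cases hxy : x + y = 0
    · rw [if_pos hxy, if_neg hx, if_neg hy]
      positivity
    rw [if_neg hxy, if_neg hx, if_neg hy]
    have h := C.ord_add p hx hy hxy
    have hpx : (0 : ℝ) < (2 : ℝ) ^ (-C.ord p x) := by positivity
    have hpy : (0 : ℝ) < (2 : ℝ) ^ (-C.ord p y) := by positivity
    rcases min_le_iff.mp h with h1 | h1
    · have : (2 : ℝ) ^ (-C.ord p (x + y)) ≤ (2 : ℝ) ^ (-C.ord p x) :=
        zpow_le_zpow_right₀ (by norm_num) (by omega)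
      linarith
    · have : (2 : ℝ) ^ (-C.ord p (x + y)) ≤ (2 : ℝ) ^ (-C.ord p y) :=
        zpow_le_zpow_right₀ (by norm_num) (by omega)
      linarith

theorem absv_apply_of_ne_zero (p : X) {x : F} (hx : x ≠ 0) :
    C.absv p x = (2 : ℝ) ^ (-C.ord p x) := by
  classical
  show (if x = 0 then (0 : ℝ) else (2 : ℝ) ^ (-C.ord p x)) = _
  rw [if_neg hx]

theorem absv_isNontrivial (p : X) : (C.absv p).IsNontrivial := by
  obtain ⟨t, ht0, ht⟩ := C.exists_uniformizer p
  refine ⟨t, ht0, ?_⟩
  rw [C.absv_apply_of_ne_zero p ht0, ht]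
  norm_num

theorem absv_not_isEquiv {p q : X} (hpq : p ≠ q) : ¬ (C.absv p).IsEquiv (C.absv q) := by
  intro h
  obtain ⟨u, hu0, hup, huq⟩ := C.separated p q hpq
  have h1 := (h u 1).mp (by
    rw [C.absv_apply_of_ne_zero p hu0, map_one]
    exact zpow_le_one_of_nonpos₀ (by norm_num) (by omega))
  rw [C.absv_apply_of_ne_zero q hu0, map_one] at h1
  have h2 : (1 : ℝ) < (2 : ℝ) ^ (-C.ord q u) :=
    one_lt_zpow₀ (by norm_num) (by omega)
  linarith

/-- If `absv p x < 2 ^ (-n)` then `x = 0` or `n < ord p x`. -/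
theorem lt_ord_of_absv_lt (p : X) {x : F} {n : ℤ} (h : C.absv p x < (2 : ℝ) ^ (-n)) (hx : x ≠ 0) :
    n < C.ord p x := by
  rw [C.absv_apply_of_ne_zero p hx] at h
  have := (zpow_lt_zpow_iff_right₀ (by norm_num : (1 : ℝ) < 2)).mp h
  omega

/-- Weak approximation, metric form. -/
theorem exists_absv_sub_lt (s : Finset X) (w : X → F) (ε : ℝ) (hε : 0 < ε) :
    ∃ x : F, ∀ p ∈ s, C.absv p (x - w p) < ε := by
  have hd := AbsoluteValue.denseRange_algebraMap_pi (ι := s) (v := fun i => C.absv i)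
    (fun i => C.absv_isNontrivial i)
    (fun i j hij => C.absv_not_isEquiv (fun h => hij (Subtype.ext h)))
  obtain ⟨x, hx⟩ := Metric.denseRange_iff.mp hd
    (fun i => WithAbs.toAbs (C.absv i) (w i)) ε hε
  refine ⟨x, fun p hp => ?_⟩
  rw [dist_pi_lt_iff hε] at hx
  have := hx ⟨p, hp⟩
  rw [dist_comm, dist_eq_norm] at this
  exact this

/-- Weak approximation: prescribe the order of `x - y p` at finitely many points. -/
theorem exists_approx (s : Finset X) (y : X → F) (r : X → ℤ) :
    ∃ x : F, ∀ p ∈ s, x - y p ≠ 0 ∧ C.ord p (x - y p) = r p := by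
  classical
  choose t ht0 ht using C.exists_uniformizer
  set z : X → F := fun p => t p ^ r p with hz
  have hz0 : ∀ p, z p ≠ 0 := fun p => zpow_ne_zero _ (ht0 p)
  have hzord : ∀ p, C.ord p (z p) = r p := fun p => by
    rw [hz]
    simp only
    rw [C.ord_zpow p (ht0 p), ht p, mul_one]
  set M : ℤ := ∑ i ∈ s, |r i| with hM
  have hMle : ∀ p ∈ s, r p ≤ M := fun p hp =>
    le_trans (le_abs_self _) (Finset.single_le_sum (f := fun i => |r i|)
      (fun i _ => abs_nonneg _) hp)
  obtain ⟨x, hx⟩ := C.exists_absv_sub_lt s (fun p => y p + z p) ((2 : ℝ) ^ (-M)) (by positivity)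
  refine ⟨x, fun p hp => ?_⟩
  have hxp := hx p hp
  have hsplit : x - y p = z p + (x - (y p + z p)) := by ring
  by_cases h0 : x - (y p + z p) = 0
  · rw [hsplit, h0, add_zero]
    exact ⟨hz0 p, hzord p⟩
  · have hlt : M < C.ord p (x - (y p + z p)) := C.lt_ord_of_absv_lt p hxp h0
    have hlt' : C.ord p (z p) < C.ord p (x - (y p + z p)) := by
      rw [hzord p]
      exact lt_of_le_of_lt (hMle p hp) hlt
    rw [hsplit]
    exact ⟨C.add_ne_zero_of_ord_lt p (hz0 p) h0 hlt',
      (C.ord_add_eq_of_lt p (hz0 p) h0 hlt').trans (hzord p)⟩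

end Curve

end Fermat.Agent.RRL
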