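import Fermat.Agent.RR.Defs

/-!
# Basic valuation and divisor lemmas for `PreCurve` (shared API of the RR package)
-/

set_option autoImplicit false

namespace Fermat.Agent.RRL

namespace PreCurve

variable {K F X : Type*} [Field K] [Field F] [Algebra K F] (C : PreCurve K F X)

/-! ### Valuation lemmas -/

theorem ord_one (p : X) : C.ord p 1 = 0 := by
  have h := C.ord_mul p (one_ne_zero : (1 : F) ≠ 0) one_ne_zero
  rw [mul_one] at h
  linarith

theorem ord_inv (p : X) {x : F} (hx : x ≠ 0) : C.ord p x⁻¹ = -C.ord p x := by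
  have h := C.ord_mul p hx (inv_ne_zero hx)
  rw [mul_inv_cancel₀ hx, C.ord_one] at h
  linarith

theorem ord_neg (p : X) {x : F} (hx : x ≠ 0) : C.ord p (-x) = C.ord p x := by
  have h1 : (algebraMap K F (-1)) ≠ 0 := by simp
  have h := C.ord_mul p h1 hx
  rw [C.ord_algebraMap p (by norm_num : (-1 : K) ≠ 0)] at h
  simpa using h

theorem ord_pow (p : X) {x : F} (hx : x ≠ 0) (n : ℕ) : C.ord p (x ^ n) = n * C.ord p x := by
  induction n with
  | zero => simp [C.ord_one]
  | succ k ih =>
    rw [pow_succ, C.ord_mul p (pow_ne_zero k hx) hx, ih]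
    push_cast
    ring

theorem ord_zpow (p : X) {x : F} (hx : x ≠ 0) (n : ℤ) : C.ord p (x ^ n) = n * C.ord p x := by
  obtain ⟨k, rfl | rfl⟩ := n.eq_nat_or_neg
  · rw [zpow_natCast, C.ord_pow p hx]
  · rw [zpow_neg, zpow_natCast, C.ord_inv p (pow_ne_zero k hx), C.ord_pow p hx]
    ring

theorem ord_div (p : X) {x y : F} (hx : x ≠ 0) (hy : y ≠ 0) :
    C.ord p (x / y) = C.ord p x - C.ord p y := by
  rw [div_eq_mul_inv, C.ord_mul p hx (inv_ne_zero hy), C.ord_inv p hy]
  ring

theorem ord_smul (p : X) {c : K} (hc : c ≠ 0) {x : F} (hx : x ≠ 0) :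
    C.ord p (c • x) = C.ord p x := by
  have hc' : algebraMap K F c ≠ 0 := by simpa using hc
  rw [Algebra.smul_def, C.ord_mul p hc' hx, C.ord_algebraMap p hc, zero_add]

theorem ord_sub (p : X) {x y : F} (hx : x ≠ 0) (hy : y ≠ 0) (hxy : x - y ≠ 0) :
    min (C.ord p x) (C.ord p y) ≤ C.ord p (x - y) := by
  have h := C.ord_add p hx (neg_ne_zero.2 hy) (by rwa [← sub_eq_add_neg])
  rwa [C.ord_neg p hy, ← sub_eq_add_neg] at h

theorem add_ne_zero_of_ord_lt (p : X) {x y : F} (_hx : x ≠ 0) (hy : y ≠ 0)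
    (h : C.ord p x < C.ord p y) : x + y ≠ 0 := by
  intro h0
  have hxy : x = -y := eq_neg_of_add_eq_zero_left h0
  rw [hxy, C.ord_neg p hy] at h
  exact lt_irrefl _ h

/-- The ultrametric inequality is an equality when the orders differ. -/
theorem ord_add_eq_of_lt (p : X) {x y : F} (hx : x ≠ 0) (hy : y ≠ 0)
    (h : C.ord p x < C.ord p y) : C.ord p (x + y) = C.ord p x := by
  have hxy : x + y ≠ 0 := C.add_ne_zero_of_ord_lt p hx hy h
  apply le_antisymm
  · by_contra hcon
    push Not at hcon
    -- x = (x + y) - y has order ≥ min (ord (x+y)) (ord y) > ord x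
    have h1 := C.ord_sub p hxy hy (by simpa using hx)
    rw [add_sub_cancel_right] at h1
    have : C.ord p x < min (C.ord p (x + y)) (C.ord p y) := lt_min hcon h
    exact absurd h1 (not_le.2 this)
  · have := C.ord_add p hx hy hxy
    rwa [min_eq_left h.le] at this

/-! ### The submodules `{x | ord p x ≥ n}` -/

/-- `ball p n = {x | x = 0 ∨ n ≤ ord p x}`, a `K`-submodule of `F`. -/
def ball (p : X) (n : ℤ) : Submodule K F where
  carrier := {x | x = 0 ∨ n ≤ C.ord p x}
  zero_mem' := Or.inl rfl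
  add_mem' := by
    rintro x y hx hy
    by_cases hx0 : x = 0
    · simpa [hx0] using hy
    by_cases hy0 : y = 0
    · simpa [hy0] using hx
    by_cases hxy : x + y = 0
    · exact Or.inl hxy
    exact Or.inr (le_trans (le_min (hx.resolve_left hx0) (hy.resolve_left hy0))
      (C.ord_add p hx0 hy0 hxy))
  smul_mem' := by
    rintro c x hx
    by_cases hc : c = 0
    · left; simp [hc]
    by_cases hx0 : x = 0
    · left; simp [hx0]
    refine Or.inr ?_
    have hc' : algebraMap K F c ≠ 0 := by simpa using hc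
    rw [Algebra.smul_def, C.ord_mul p hc' hx0, C.ord_algebraMap p hc, zero_add]
    exact hx.resolve_left hx0

theorem mem_ball (p : X) (n : ℤ) (x : F) : x ∈ C.ball p n ↔ x = 0 ∨ n ≤ C.ord p x := Iff.rfl

theorem mem_ball_of_ne_zero (p : X) (n : ℤ) {x : F} (hx : x ≠ 0) :
    x ∈ C.ball p n ↔ n ≤ C.ord p x := by
  rw [mem_ball]
  exact or_iff_right hx

theorem ball_antitone (p : X) {n m : ℤ} (h : n ≤ m) : C.ball p m ≤ C.ball p n := by
  intro x hx
  exact hx.imp id fun h' => h.trans h'

theorem mul_mem_ball (p : X) {n m : ℤ} {x y : F} (hx : x ∈ C.ball p n) (hy : y ∈ C.ball p m) :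
    x * y ∈ C.ball p (n + m) := by
  by_cases hx0 : x = 0
  · rw [hx0, zero_mul]; exact Submodule.zero_mem _
  by_cases hy0 : y = 0
  · rw [hy0, mul_zero]; exact Submodule.zero_mem _
  refine Or.inr ?_
  rw [C.ord_mul p hx0 hy0]
  exact add_le_add ((C.mem_ball_of_ne_zero p n hx0).1 hx) ((C.mem_ball_of_ne_zero p m hy0).1 hy)

theorem algebraMap_mem_ball_zero (p : X) (c : K) : algebraMap K F c ∈ C.ball p 0 := by
  by_cases hc : c = 0
  · rw [hc, map_zero]; exact Submodule.zero_mem _
  exact Or.inr (C.ord_algebraMap p hc).ge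

theorem mem_L_iff_forall_mem_ball (D : X →₀ ℤ) (x : F) :
    x ∈ C.L D ↔ ∀ p : X, x ∈ C.ball p (-D p) := by
  rw [PreCurve.mem_L]
  constructor
  · rintro (h | h) p
    · exact Or.inl h
    · exact Or.inr (h p)
  · intro h
    by_cases hx : x = 0
    · exact Or.inl hx
    · exact Or.inr fun p => (C.mem_ball_of_ne_zero p _ hx).1 (h p)

/-- The quotient `ball p n / ball p (n + 1)` is at most one-dimensional: modulo `ball p (n + 1)`
every element of `ball p n` is a multiple of any element of exact order `n`. -/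
theorem exists_sub_smul_mem_ball (p : X) (n : ℤ) {x₀ : F} (hx₀ : x₀ ≠ 0) (h₀ : C.ord p x₀ = n)
    {x : F} (hx : x ∈ C.ball p n) : ∃ c : K, x - c • x₀ ∈ C.ball p (n + 1) := by
  by_cases hx0 : x = 0
  · exact ⟨0, by rw [hx0, zero_smul, sub_zero]; exact Submodule.zero_mem _⟩
  have hxy : x * x₀⁻¹ ≠ 0 := mul_ne_zero hx0 (inv_ne_zero hx₀)
  have h0 : 0 ≤ C.ord p (x * x₀⁻¹) := by
    rw [C.ord_mul p hx0 (inv_ne_zero hx₀), C.ord_inv p hx₀, h₀]
    have := (C.mem_ball_of_ne_zero p n hx0).1 hx
    linarith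
  obtain ⟨c, hc | hc⟩ := C.exists_residue p hxy h0
  · refine ⟨c, Or.inl ?_⟩
    have : x = algebraMap K F c * x₀ := by
      rw [← hc, mul_assoc, inv_mul_cancel₀ hx₀, mul_one]
    rw [Algebra.smul_def, ← this, sub_self]
  · refine ⟨c, ?_⟩
    by_cases hz : x * x₀⁻¹ - algebraMap K F c = 0
    · refine Or.inl ?_
      have h1 : x * x₀⁻¹ = algebraMap K F c := sub_eq_zero.1 hz
      have : x = algebraMap K F c * x₀ := by
        rw [← h1, mul_assoc, inv_mul_cancel₀ hx₀, mul_one]
      rw [Algebra.smul_def, ← this, sub_self]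
    · have h2 : x - c • x₀ = (x * x₀⁻¹ - algebraMap K F c) * x₀ := by
        rw [Algebra.smul_def, sub_mul, mul_assoc, inv_mul_cancel₀ hx₀, mul_one]
      rw [h2]
      refine Or.inr ?_
      rw [C.ord_mul p hz hx₀, h₀]
      linarith

/-- The residue at `p` of an element of `ball p 0` is unique. -/
theorem residue_unique (p : X) {x : F} {c c' : K}
    (h : x - algebraMap K F c ∈ C.ball p 1) (h' : x - algebraMap K F c' ∈ C.ball p 1) :
    c = c' := by
  by_contra hne
  have hd : (x - algebraMap K F c) - (x - algebraMap K F c') ∈ C.ball p 1 :=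
    Submodule.sub_mem _ h h'
  have he : (x - algebraMap K F c) - (x - algebraMap K F c') = algebraMap K F (c' - c) := by
    rw [map_sub]; ring
  rw [he] at hd
  have hcc : c' - c ≠ 0 := sub_ne_zero.2 (Ne.symm hne)
  have hne' : algebraMap K F (c' - c) ≠ 0 :=
    (map_ne_zero_iff _ (algebraMap K F).injective).2 hcc
  have := (C.mem_ball_of_ne_zero p 1 hne').1 hd
  rw [C.ord_algebraMap p hcc] at this
  exact absurd this (by norm_num)

/-- Constants are exactly the functions without zeros and poles, in the following form: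
a non-constant function is transcendental over `K`. -/
theorem transcendental_of_nonconst (C : PreCurve K F X) {x : F}
    (hx : ∀ c : K, x ≠ algebraMap K F c) : Transcendental K x := by
  intro halg
  have hx0 : x ≠ 0 := by
    intro h
    exact hx 0 (by rw [h, map_zero])
  have hint : IsIntegral K x := halg.isIntegral
  have hmonic := minpoly.monic hint
  have haeval := minpoly.aeval K x
  set q := minpoly K x with hq
  set n := q.natDegree with hn
  -- a pole of `x` is impossible
  have hnonneg : ∀ p : X, 0 ≤ C.ord p x := by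
    intro p
    by_contra hneg
    push Not at hneg
    have hsum := hmonic.as_sum
    rw [hsum] at haeval
    simp only [map_add, map_pow, Polynomial.aeval_X, map_sum, map_mul, Polynomial.aeval_C]
      at haeval
    have hxn : x ^ n = -∑ i ∈ Finset.range n, algebraMap K F (q.coeff i) * x ^ i :=
      eq_neg_of_add_eq_zero_left haeval
    have hmem : x ^ n ∈ C.ball p (n * C.ord p x - C.ord p x) := by
      rw [hxn]
      refine Submodule.neg_mem _ (Submodule.sum_mem _ fun i hi => ?_)
      have hi' : i + 1 ≤ n := Finset.mem_range.1 hi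
      have h1 : x ^ i ∈ C.ball p (i * C.ord p x) :=
        (C.mem_ball_of_ne_zero p _ (pow_ne_zero i hx0)).2 (C.ord_pow p hx0 i).ge
      have h2 := C.mul_mem_ball p (C.algebraMap_mem_ball_zero p (q.coeff i)) h1
      rw [zero_add] at h2
      refine C.ball_antitone p ?_ h2
      have h3 : ((i : ℤ) + 1) ≤ (n : ℤ) := by exact_mod_cast hi'
      nlinarith
    have h4 := (C.mem_ball_of_ne_zero p _ (pow_ne_zero n hx0)).1 hmem
    rw [C.ord_pow p hx0 n] at h4
    linarith
  obtain ⟨c, hc⟩ := C.const_of_nonneg hx0 hnonneg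
  exact hx c hc

/-! ### Divisors -/

theorem deg_zero : deg (0 : X →₀ ℤ) = 0 := by
  unfold deg
  exact Finsupp.sum_zero_index

theorem deg_add (A B : X →₀ ℤ) : deg (A + B) = deg A + deg B := by
  unfold deg
  exact Finsupp.sum_add_index' (fun _ => rfl) (fun _ _ _ => rfl)

theorem deg_neg (A : X →₀ ℤ) : deg (-A) = -deg A := by
  have h := deg_add A (-A)
  rw [add_neg_cancel, deg_zero] at h
  linarith

theorem deg_sub (A B : X →₀ ℤ) : deg (A - B) = deg A - deg B := by
  rw [sub_eq_add_neg, deg_add, deg_neg]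
  ring

theorem deg_single (p : X) (n : ℤ) : deg (Finsupp.single p n) = n := by
  unfold deg
  exact Finsupp.sum_single_index rfl

theorem deg_eq_finsum (A : X →₀ ℤ) : deg A = ∑ᶠ p : X, A p := by
  unfold deg
  rw [Finsupp.sum, finsum_eq_sum_of_support_subset]
  intro p hp
  simpa using hp

theorem deg_le_deg {A B : X →₀ ℤ} (h : A ≤ B) : deg A ≤ deg B := by
  have h1 : deg B = deg A + deg (B - A) := by
    rw [← deg_add, add_sub_cancel]
  have h2 : 0 ≤ deg (B - A) := by
    unfold deg
    apply Finset.sum_nonneg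
    intro p _
    have := h p
    simp only [Finsupp.coe_sub, Pi.sub_apply]
    linarith
  linarith

/-- The principal divisor of a function (`0` for the zero function). -/
noncomputable def div (x : F) : X →₀ ℤ :=
  open Classical in
  if hx : x = 0 then 0 else Finsupp.ofSupportFinite (fun p => C.ord p x) (C.finite_support hx)

theorem div_apply {x : F} (hx : x ≠ 0) (p : X) : C.div x p = C.ord p x := by
  unfold div
  rw [dif_neg hx]
  rfl

theorem div_mul {x y : F} (hx : x ≠ 0) (hy : y ≠ 0) : C.div (x * y) = C.div x + C.div y := by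
  ext p
  rw [Finsupp.add_apply, C.div_apply (mul_ne_zero hx hy), C.div_apply hx, C.div_apply hy,
    C.ord_mul p hx hy]

theorem div_inv {x : F} (hx : x ≠ 0) : C.div x⁻¹ = -C.div x := by
  ext p
  rw [Finsupp.neg_apply, C.div_apply (inv_ne_zero hx), C.div_apply hx, C.ord_inv p hx]

theorem div_algebraMap (c : K) : C.div (algebraMap K F c) = 0 := by
  by_cases hc : c = 0
  · unfold div
    rw [dif_pos (by rw [hc, map_zero])]
  have hc' : algebraMap K F c ≠ 0 := by simpa using hc
  ext p
  rw [C.div_apply hc', C.ord_algebraMap p hc]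
  rfl

/-- The divisor of poles of a function. -/
noncomputable def poleDiv (x : F) : X →₀ ℤ :=
  (C.div x).mapRange (fun n : ℤ => max (-n) 0) (by simp)

/-- The divisor of zeros of a function. -/
noncomputable def zeroDiv (x : F) : X →₀ ℤ :=
  (C.div x).mapRange (fun n : ℤ => max n 0) (by simp)

theorem poleDiv_apply {x : F} (hx : x ≠ 0) (p : X) : C.poleDiv x p = max (-C.ord p x) 0 := by
  unfold poleDiv
  rw [Finsupp.mapRange_apply, C.div_apply hx]

theorem zeroDiv_apply {x : F} (hx : x ≠ 0) (p : X) : C.zeroDiv x p = max (C.ord p x) 0 := by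
  unfold zeroDiv
  rw [Finsupp.mapRange_apply, C.div_apply hx]

theorem div_eq_zeroDiv_sub_poleDiv (x : F) : C.div x = C.zeroDiv x - C.poleDiv x := by
  ext p
  unfold zeroDiv poleDiv
  rw [Finsupp.sub_apply, Finsupp.mapRange_apply, Finsupp.mapRange_apply]
  rcases le_total (C.div x p) 0 with h | h
  · rw [max_eq_right h, max_eq_left (neg_nonneg.2 h)]; ring
  · rw [max_eq_left h, max_eq_right (neg_nonpos.2 h)]; ring

theorem poleDiv_nonneg (x : F) : 0 ≤ C.poleDiv x := by
  intro p
  unfold poleDiv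
  rw [Finsupp.mapRange_apply]
  exact le_max_right _ _

theorem zeroDiv_nonneg (x : F) : 0 ≤ C.zeroDiv x := by
  intro p
  unfold zeroDiv
  rw [Finsupp.mapRange_apply]
  exact le_max_right _ _

theorem poleDiv_inv {x : F} (hx : x ≠ 0) : C.poleDiv x⁻¹ = C.zeroDiv x := by
  ext p
  rw [C.poleDiv_apply (inv_ne_zero hx), C.zeroDiv_apply hx, C.ord_inv p hx, neg_neg]

theorem deg_poleDiv_eq_finsum {x : F} (hx : x ≠ 0) :
    deg (C.poleDiv x) = ∑ᶠ p : X, max (-C.ord p x) 0 := by
  rw [deg_eq_finsum]
  exact finsum_congr fun p => C.poleDiv_apply hx p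

theorem deg_zeroDiv_eq_finsum {x : F} (hx : x ≠ 0) :
    deg (C.zeroDiv x) = ∑ᶠ p : X, max (C.ord p x) 0 := by
  rw [deg_eq_finsum]
  exact finsum_congr fun p => C.zeroDiv_apply hx p

end PreCurve

end Fermat.Agent.RRL
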