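import Fermat.Agent.RR.Step2

/-!
# Normalization from counting

If a non-constant function `x` on a `PreCurve` has `[F : K(x)] ≥ n` while every fibre of `x`
has at most `n` points (counted with multiplicity), then all valuations of the `PreCurve` are
normalized and pairwise inequivalent (`PreCurve.curve_of_count_aux`).

The proof applies "Step 2" (`PreCurve.card_le_deg_poleDiv_of_linearIndependent`) to auxiliary
`PreCurve`s obtained from the given one by dividing some valuations by a positive integer
and/or dropping redundant points (`Count.rescale`), and compares the degrees of the pole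
divisors (`Count.poles_of_deg_poleDiv_le`):

* if the value group of `ord p` were `m ℤ` with `m ≥ 2`, dividing `ord p` by `m` would give a
  `PreCurve` in which the fibre of `x` through `p` has fewer than `n` points;
* if `ord q` were dominated by `ord p` for some `p ≠ q`, dropping `q` would give a `PreCurve`
  in which the fibre of `x` through `q` has fewer than `n` points.
-/

set_option autoImplicit false

open scoped IntermediateField

namespace Fermat.Agent.RRL

variable {K F X : Type*} [Field K] [Field F] [Algebra K F]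

namespace Count

/-- `K(1 / (x - c)) = K(x)`. -/
theorem adjoin_inv_sub (x : F) (c : K) : K⟮(x - algebraMap K F c)⁻¹⟯ = K⟮x⟯ := by
  apply le_antisymm
  · rw [IntermediateField.adjoin_simple_le_iff]
    exact inv_mem (sub_mem (IntermediateField.mem_adjoin_simple_self K x) (algebraMap_mem _ c))
  · rw [IntermediateField.adjoin_simple_le_iff]
    have h1 : ((x - algebraMap K F c)⁻¹)⁻¹ + algebraMap K F c ∈ K⟮(x - algebraMap K F c)⁻¹⟯ :=
      add_mem (inv_mem (IntermediateField.mem_adjoin_simple_self K _)) (algebraMap_mem _ c)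
    rwa [inv_inv, sub_add_cancel] at h1

/-- If `x` is not constant, neither is `1 / (x - c)`. -/
theorem inv_sub_ne_algebraMap {x : F} (hx : ∀ c : K, x ≠ algebraMap K F c) (c c' : K) :
    (x - algebraMap K F c)⁻¹ ≠ algebraMap K F c' := by
  intro h
  have h2 : x - algebraMap K F c = algebraMap K F c'⁻¹ := by
    rw [map_inv₀, ← h, inv_inv]
  exact hx (c'⁻¹ + c) (by rw [map_add, ← h2, sub_add_cancel])

/-- From a lower bound `n ≤ rank` extract a linearly independent family indexed by `Fin n`. -/
theorem exists_fin_linearIndependent {E V : Type*} [Field E] [AddCommGroup V] [Module E V]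
    {n : ℕ} (hn : (n : Cardinal) ≤ Module.rank E V) :
    ∃ u : Fin n → V, LinearIndependent E u := by
  obtain ⟨s, hs, hsli⟩ := le_rank_iff_exists_linearIndependent_finset.1 hn
  exact ⟨_, hsli.comp (Finset.equivFinOfCardEq hs).symm
    (Finset.equivFinOfCardEq hs).symm.injective⟩

/-- A rescaled sub-family of the valuations of a `PreCurve` is again a `PreCurve`, provided the
sub-family still detects the constants.  Here `φ : X' → X` is an injection, and the valuation
`ord' p'` is the valuation `C.ord (φ p')` divided by the positive integer `e p'`. -/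
def rescale (C : PreCurve K F X) {X' : Type*} (φ : X' → X) (hφ : Function.Injective φ)
    (e : X' → ℤ) (he : ∀ p' : X', 1 ≤ e p') (ord' : X' → F → ℤ)
    (hord : ∀ (p' : X') (z : F), z ≠ 0 → C.ord (φ p') z = e p' * ord' p' z)
    (hdom : ∀ z : F, z ≠ 0 → (∀ p' : X', 0 ≤ C.ord (φ p') z) → ∀ p : X, 0 ≤ C.ord p z) :
    PreCurve K F X' where
  ord := ord'
  ord_mul := by
    intro p' x y hx hy
    have h := C.ord_mul (φ p') hx hy
    rw [hord p' _ (mul_ne_zero hx hy), hord p' _ hx, hord p' _ hy, ← mul_add] at h
    have he' := he p'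
    exact mul_left_cancel₀ (by omega) h
  ord_add := by
    intro p' x y hx hy hxy
    have h := C.ord_add (φ p') hx hy hxy
    have he' := he p'
    rw [hord p' _ hxy, hord p' _ hx, hord p' _ hy, ← mul_min_of_nonneg _ _ (by omega)] at h
    exact le_of_mul_le_mul_left h (by omega)
  ord_algebraMap := by
    intro p' c hc
    have h := C.ord_algebraMap (φ p') hc
    have hc' : algebraMap K F c ≠ 0 := by simpa using hc
    have he' := he p'
    rw [hord p' _ hc'] at h
    exact (mul_eq_zero.1 h).resolve_left (by omega)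
  exists_residue := by
    intro p' z hz h0
    have he' := he p'
    have h0' : 0 ≤ C.ord (φ p') z := by
      rw [hord p' z hz]
      exact mul_nonneg (by omega) h0
    obtain ⟨c, hc⟩ := C.exists_residue (φ p') hz h0'
    refine ⟨c, ?_⟩
    by_cases hzc : z = algebraMap K F c
    · exact Or.inl hzc
    · right
      have h1 := hc.resolve_left hzc
      rw [hord p' _ (sub_ne_zero.2 hzc)] at h1
      by_contra hle
      have hle' := not_lt.1 hle
      nlinarith
  finite_support := by
    intro z hz
    refine ((C.finite_support hz).preimage hφ.injOn).subset ?_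
    intro p' hp'
    have he' := he p'
    show C.ord (φ p') z ≠ 0
    rw [hord p' z hz]
    exact mul_ne_zero (by omega) hp'
  const_of_nonneg := by
    intro z hz h
    refine C.const_of_nonneg hz (hdom z hz fun p' => ?_)
    have he' := he p'
    rw [hord p' z hz]
    exact mul_nonneg (by omega) (h p')

/-- Comparison of the pole divisors of a `PreCurve` and of a rescaled sub-family
(see `Count.rescale`): if the degree of the pole divisor of a non-constant `y` is at most the
number `n` of elements of a `K(y)`-linearly independent family `u`, then all poles of `y` lie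
in the sub-family and their valuations are not rescaled. -/
theorem poles_of_deg_poleDiv_le (C : PreCurve K F X) {X' : Type*} (φ : X' → X)
    (hφ : Function.Injective φ) (e : X' → ℤ) (he : ∀ p' : X', 1 ≤ e p') (ord' : X' → F → ℤ)
    (hord : ∀ (p' : X') (z : F), z ≠ 0 → C.ord (φ p') z = e p' * ord' p' z)
    (hdom : ∀ z : F, z ≠ 0 → (∀ p' : X', 0 ≤ C.ord (φ p') z) → ∀ p : X, 0 ≤ C.ord p z)
    {y : F} (hy : ∀ c : K, y ≠ algebraMap K F c) {n : ℕ} (u : Fin n → F)
    (hu : LinearIndependent K⟮y⟯ u) (hdeg : PreCurve.deg (C.poleDiv y) ≤ n) :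
    (∀ p : X, C.ord p y < 0 → p ∈ Set.range φ) ∧
      (∀ p' : X', C.ord (φ p') y < 0 → e p' = 1) := by
  have hy0 : y ≠ 0 := fun h => hy 0 (by rw [h, map_zero])
  -- Step 2 for the rescaled sub-family
  have h1 : (n : ℤ) ≤ PreCurve.deg ((rescale C φ hφ e he ord' hord hdom).poleDiv y) :=
    (rescale C φ hφ e he ord' hord hdom).card_le_deg_poleDiv_of_linearIndependent hy u hu
  -- push the pole divisor forward to `X`
  obtain ⟨A, hA⟩ : ∃ A : X →₀ ℤ,
      A = Finsupp.mapDomain φ ((rescale C φ hφ e he ord' hord hdom).poleDiv y) := ⟨_, rfl⟩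
  have hdegA : PreCurve.deg A =
      PreCurve.deg ((rescale C φ hφ e he ord' hord hdom).poleDiv y) := by
    rw [hA]
    exact Finsupp.sum_mapDomain_index (fun _ => rfl) (fun _ _ _ => rfl)
  have hAφ : ∀ p' : X', A (φ p') = max (-(ord' p' y)) 0 := by
    intro p'
    rw [hA, Finsupp.mapDomain_apply hφ, PreCurve.poleDiv_apply _ hy0]
    rfl
  have hAr : ∀ p : X, p ∉ Set.range φ → A p = 0 := by
    intro p hp
    rw [hA, Finsupp.mapDomain_of_notMem_range _ _ hp]
  -- it is dominated by the pole divisor of `y` on `C` ...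
  have hAB : A ≤ C.poleDiv y := by
    intro p
    by_cases hp : p ∈ Set.range φ
    · obtain ⟨p', rfl⟩ := hp
      rw [hAφ, C.poleDiv_apply hy0, hord p' y hy0]
      have he' := he p'
      rcases le_or_gt 0 (ord' p' y) with h | h
      · rw [max_eq_right (by omega)]
        exact le_max_right _ _
      · refine max_le (le_trans ?_ (le_max_left _ _)) (le_max_right _ _)
        nlinarith
    · rw [hAr p hp]
      exact C.poleDiv_nonneg y p
  -- ... and has at least the same degree, hence both agree
  have hle : ∀ p : X, C.poleDiv y p ≤ A p := by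
    intro p
    have h2 : Finsupp.single p ((C.poleDiv y - A) p) ≤ C.poleDiv y - A := by
      intro q
      by_cases hq : q = p
      · subst hq
        rw [Finsupp.single_eq_same]
      · rw [Finsupp.single_eq_of_ne hq, Finsupp.sub_apply]
        have := hAB q
        omega
    have h3 := PreCurve.deg_le_deg h2
    rw [PreCurve.deg_single, PreCurve.deg_sub, hdegA, Finsupp.sub_apply] at h3
    omega
  constructor
  · intro p hp
    by_contra hpr
    have h4 := hle p
    rw [hAr p hpr, C.poleDiv_apply hy0] at h4
    have := le_max_left (-C.ord p y) 0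
    omega
  · intro p' hp'
    have h4 := hle (φ p')
    rw [hAφ, C.poleDiv_apply hy0] at h4
    rw [hord p' y hy0] at h4 hp'
    have he' := he p'
    have ho : ord' p' y < 0 := by
      by_contra h
      have h' := not_lt.1 h
      nlinarith
    rw [max_eq_left (by omega), max_eq_left (by omega)] at h4
    nlinarith

/-- Under the hypotheses of `PreCurve.curve_of_count_aux`, every point `p` is a pole of some
generator `y` of `K(x)` over `K` (namely `x` or some `1 / (x - c)`) whose pole divisor has
degree at most `n`. -/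
theorem exists_generator_pole (C : PreCurve K F X) {x : F} {n : ℕ}
    (hx : ∀ c : K, x ≠ algebraMap K F c)
    (hfin : ∀ c : K, ∑ᶠ p : X, max (C.ord p (x - algebraMap K F c)) 0 ≤ (n : ℤ))
    (hinf : ∑ᶠ p : X, max (-C.ord p x) 0 ≤ (n : ℤ))
    (u : Fin n → F) (hu : LinearIndependent K⟮x⟯ u) (p : X) :
    ∃ y : F, (∀ c : K, y ≠ algebraMap K F c) ∧ C.ord p y < 0 ∧
      LinearIndependent K⟮y⟯ u ∧ PreCurve.deg (C.poleDiv y) ≤ n := by
  have hx0 : x ≠ 0 := fun h => hx 0 (by rw [h, map_zero])
  by_cases hp : C.ord p x < 0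
  · exact ⟨x, hx, hp, hu, by rw [C.deg_poleDiv_eq_finsum hx0]; exact hinf⟩
  · obtain ⟨c, hc⟩ := C.exists_residue p hx0 (not_lt.1 hp)
    have hc' := hc.resolve_left (hx c)
    have hxc : x - algebraMap K F c ≠ 0 := sub_ne_zero.2 (hx c)
    refine ⟨(x - algebraMap K F c)⁻¹, inv_sub_ne_algebraMap hx c, ?_, ?_, ?_⟩
    · rw [C.ord_inv p hxc]
      omega
    · exact (adjoin_inv_sub x c).symm ▸ hu
    · rw [C.poleDiv_inv hxc, C.deg_zeroDiv_eq_finsum hxc]
      exact hfin c

/-- The value group of a valuation of a `PreCurve` is generated by a single integer `a`. -/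
theorem exists_generator (C : PreCurve K F X) (p : X) :
    ∃ a : ℤ, (∀ z : F, z ≠ 0 → a ∣ C.ord p z) ∧ ∃ t : F, t ≠ 0 ∧ C.ord p t = a := by
  let H : AddSubgroup ℤ :=
    { carrier := {k | ∃ z : F, z ≠ 0 ∧ C.ord p z = k}
      zero_mem' := ⟨1, one_ne_zero, C.ord_one p⟩
      add_mem' := by
        rintro a b ⟨z, hz, rfl⟩ ⟨w, hw, rfl⟩
        exact ⟨z * w, mul_ne_zero hz hw, C.ord_mul p hz hw⟩
      neg_mem' := by
        rintro a ⟨z, hz, rfl⟩
        exact ⟨z⁻¹, inv_ne_zero hz, C.ord_inv p hz⟩ }
  obtain ⟨a, ha⟩ := Int.subgroup_cyclic H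
  have hmem : ∀ k : ℤ, k ∈ H ↔ a ∣ k := by
    intro k
    rw [ha, ← AddSubgroup.zmultiples_eq_closure, Int.mem_zmultiples_iff]
  exact ⟨a, fun z hz => (hmem _).1 ⟨z, hz, rfl⟩, (hmem a).2 dvd_rfl⟩

end Count

theorem PreCurve.curve_of_count_aux (C : PreCurve K F X) (x : F) (n : ℕ)
    (hx : ∀ c : K, x ≠ algebraMap K F c)
    (hn : (n : Cardinal) ≤ Module.rank K⟮x⟯ F)
    (hfin : ∀ c : K, ∑ᶠ p : X, max (C.ord p (x - algebraMap K F c)) 0 ≤ (n : ℤ))
    (hinf : ∑ᶠ p : X, max (-C.ord p x) 0 ≤ (n : ℤ)) :
    (∀ p : X, ∃ t : F, t ≠ 0 ∧ C.ord p t = 1) ∧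
      (∀ p q : X, p ≠ q → ∃ u : F, u ≠ 0 ∧ 0 ≤ C.ord p u ∧ C.ord q u < 0) := by
  obtain ⟨u, hu⟩ := Count.exists_fin_linearIndependent hn
  constructor
  · -- normalization: divide `ord p₀` by the positive generator `|a|` of its value group
    intro p₀
    obtain ⟨y, hy, hpy, huy, hdeg⟩ := Count.exists_generator_pole C hx hfin hinf u hu p₀
    have hy0 : y ≠ 0 := fun h => hy 0 (by rw [h, map_zero])
    obtain ⟨a, hdvd, t, ht, hta⟩ := Count.exists_generator C p₀
    have ha0 : a ≠ 0 := by
      rintro rfl
      have := hdvd y hy0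
      rw [zero_dvd_iff] at this
      omega
    classical
    let e : X → ℤ := fun p => if p = p₀ then |a| else 1
    have he : ∀ p : X, 1 ≤ e p := by
      intro p
      simp only [e]
      split_ifs
      · exact Int.one_le_abs ha0
      · exact le_rfl
    have hed : ∀ (p : X) (z : F), z ≠ 0 → e p ∣ C.ord p z := by
      intro p z hz
      simp only [e]
      split_ifs with h
      · subst h
        exact (abs_dvd _ _).2 (hdvd z hz)
      · exact one_dvd _
    have hkey := Count.poles_of_deg_poleDiv_le C id Function.injective_id e he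
      (fun p z => C.ord p z / e p) (fun p z hz => (Int.mul_ediv_cancel' (hed p z hz)).symm)
      (fun z hz h => h) hy u huy hdeg
    have h1 : |a| = 1 := by
      have := hkey.2 p₀ hpy
      simpa [e] using this
    rcases (abs_eq (by norm_num : (0 : ℤ) ≤ 1)).1 h1 with h | h
    · exact ⟨t, ht, by rw [hta, h]⟩
    · exact ⟨t⁻¹, inv_ne_zero ht, by rw [C.ord_inv p₀ ht, hta, h]; rfl⟩
  · -- separation: if `ord q` is dominated by `ord p`, drop the point `q`
    intro p q hpq
    by_contra hcon
    have hcon' : ∀ z : F, z ≠ 0 → 0 ≤ C.ord p z → 0 ≤ C.ord q z := fun z hz hpz =>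
      not_lt.1 fun hqz => hcon ⟨z, hz, hpz, hqz⟩
    obtain ⟨y, hy, hqy, huy, hdeg⟩ := Count.exists_generator_pole C hx hfin hinf u hu q
    have hkey := Count.poles_of_deg_poleDiv_le C (Subtype.val : {r : X // r ≠ q} → X)
      Subtype.val_injective (fun _ => 1) (fun _ => le_rfl) (fun r z => C.ord r.1 z)
      (fun r z hz => (one_mul _).symm)
      (fun z hz h r => by
        by_cases hr : r = q
        · subst hr
          exact hcon' z hz (h ⟨p, hpq⟩)
        · exact h ⟨r, hr⟩) hy u huy hdeg
    obtain ⟨r, hr⟩ := hkey.1 q hqy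
    exact r.2 hr

end Fermat.Agent.RRL
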