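import Mathlib

/-!
# Abstract curve data (interface for the Riemann–Roch package)

`PreCurve K F X`: a field `F` over `K` with a family, indexed by `X`, of `ℤ`-valued
valuations, trivial on `K`, with residue field `K`, finite supports, and "no poles ⇒ constant".

`Curve K F X`: a `PreCurve` whose valuations are surjective (have uniformizers) and
pairwise inequivalent.

Divisors are `X →₀ ℤ`; every point has degree one.
-/

set_option autoImplicit false

namespace Fermat.Agent.RRL

/-- A field `F` over `K` with a family of `ℤ`-valued valuations indexed by `X`.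
`ord p x` is only meaningful for `x ≠ 0`. -/
structure PreCurve (K F X : Type*) [Field K] [Field F] [Algebra K F] where
  /-- order of vanishing at the point `p` (meaningful for nonzero arguments only) -/
  ord : X → F → ℤ
  ord_mul : ∀ (p : X) {x y : F}, x ≠ 0 → y ≠ 0 → ord p (x * y) = ord p x + ord p y
  ord_add : ∀ (p : X) {x y : F}, x ≠ 0 → y ≠ 0 → x + y ≠ 0 →
    min (ord p x) (ord p y) ≤ ord p (x + y)
  ord_algebraMap : ∀ (p : X) {c : K}, c ≠ 0 → ord p (algebraMap K F c) = 0
  /-- the residue field at every point is `K` -/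
  exists_residue : ∀ (p : X) {x : F}, x ≠ 0 → 0 ≤ ord p x →
    ∃ c : K, x = algebraMap K F c ∨ 0 < ord p (x - algebraMap K F c)
  /-- a nonzero function has finitely many zeros and poles -/
  finite_support : ∀ {x : F}, x ≠ 0 → {p : X | ord p x ≠ 0}.Finite
  /-- a function without poles is constant -/
  const_of_nonneg : ∀ {x : F}, x ≠ 0 → (∀ p : X, 0 ≤ ord p x) → ∃ c : K, x = algebraMap K F c

/-- A `PreCurve` whose valuations are normalized and pairwise inequivalent. -/
structure Curve (K F X : Type*) [Field K] [Field F] [Algebra K F] extends PreCurve K F X where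
  exists_uniformizer : ∀ p : X, ∃ t : F, t ≠ 0 ∧ ord p t = 1
  separated : ∀ p q : X, p ≠ q → ∃ u : F, u ≠ 0 ∧ 0 ≤ ord p u ∧ ord q u < 0

namespace PreCurve

variable {K F X : Type*} [Field K] [Field F] [Algebra K F]

/-- degree of a divisor (all points have degree one) -/
def deg (D : X →₀ ℤ) : ℤ := D.sum fun _ n => n

/-- The Riemann–Roch space `L(D) = {x | x = 0 ∨ ∀ p, ord p x ≥ -D p}`. -/
def L (C : PreCurve K F X) (D : X →₀ ℤ) : Submodule K F where
  carrier := {x | x = 0 ∨ ∀ p : X, -D p ≤ C.ord p x}
  zero_mem' := Or.inl rfl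
  add_mem' := by
    rintro x y hx hy
    by_cases hx0 : x = 0
    · simpa [hx0] using hy
    by_cases hy0 : y = 0
    · simpa [hy0] using hx
    by_cases hxy : x + y = 0
    · exact Or.inl hxy
    refine Or.inr fun p => ?_
    have hx' := (hx.resolve_left hx0) p
    have hy' := (hy.resolve_left hy0) p
    exact le_trans (le_min hx' hy') (C.ord_add p hx0 hy0 hxy)
  smul_mem' := by
    rintro c x hx
    by_cases hc : c = 0
    · left; simp [hc]
    by_cases hx0 : x = 0
    · left; simp [hx0]
    refine Or.inr fun p => ?_
    have hc' : algebraMap K F c ≠ 0 := by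
      simpa using hc
    rw [Algebra.smul_def, C.ord_mul p hc' hx0, C.ord_algebraMap p hc, zero_add]
    exact (hx.resolve_left hx0) p

theorem mem_L (C : PreCurve K F X) (D : X →₀ ℤ) (x : F) :
    x ∈ C.L D ↔ x = 0 ∨ ∀ p : X, -D p ≤ C.ord p x := Iff.rfl

end PreCurve

/-- A system of local residues of a "differential with divisor `W`":
`K`-linear maps `res p : F → K` which vanish on functions with `ord p x ≥ -W p`,
do not vanish on functions with `ord p x = -W p - 1`, and satisfy the residue theorem. -/
structure ResidueSystem {K F X : Type*} [Field K] [Field F] [Algebra K F]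
    (C : PreCurve K F X) (W : X →₀ ℤ) where
  res : X → F →ₗ[K] K
  res_eq_zero : ∀ (p : X) {x : F}, x ≠ 0 → -W p ≤ C.ord p x → res p x = 0
  res_ne_zero : ∀ (p : X) {x : F}, x ≠ 0 → C.ord p x = -W p - 1 → res p x ≠ 0
  sum_res : ∀ x : F, ∑ᶠ p : X, res p x = 0

end Fermat.Agent.RRL
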