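import Fermat.Agent.RR.LSpace

/-!
# "Step 2": `[F : K(x)] ≤ deg (x)_∞` for a non-constant function on a `PreCurve`
-/

set_option autoImplicit false

open scoped IntermediateField

namespace Fermat.Agent.RRL

namespace PreCurve

variable {K F X : Type*} [Field K] [Field F] [Algebra K F] (C : PreCurve K F X)

namespace Step2

/-- The powers of a transcendental element are linearly independent. -/
theorem linearIndependent_pow_of_transcendental {x : F} (hx : Transcendental K x) :
    LinearIndependent K (fun i : ℕ => x ^ i) := by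
  have h1 : LinearIndependent K (fun n : ℕ => Polynomial.monomial n (1 : K)) := by
    have h := (Polynomial.basisMonomials K).linearIndependent
    rwa [Polynomial.coe_basisMonomials] at h
  have h2 := h1.map' (Polynomial.aeval x).toLinearMap
    (LinearMap.ker_eq_bot.mpr (transcendental_iff_injective.mp hx))
  have h3 : (fun i : ℕ => x ^ i) =
      (Polynomial.aeval x).toLinearMap ∘ (fun n : ℕ => Polynomial.monomial n (1 : K)) := by
    funext n
    simp
  rw [h3]
  exact h2

/-- The powers of the generator of `K(x)` are `K`-linearly independent when `x` is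
transcendental. -/
theorem linearIndependent_gen_pow {x : F} (hx : Transcendental K x) (l : ℕ) :
    LinearIndependent K
      (fun i : Fin (l + 1) => (IntermediateField.AdjoinSimple.gen K x) ^ (i : ℕ)) := by
  have h1 : LinearIndependent K (fun i : Fin (l + 1) => x ^ (i : ℕ)) :=
    (linearIndependent_pow_of_transcendental hx).comp (fun i : Fin (l + 1) => (i : ℕ))
      Fin.val_injective
  refine LinearIndependent.of_comp (K⟮x⟯.val.toLinearMap) ?_
  have h2 : (K⟮x⟯.val.toLinearMap ∘
      fun i : Fin (l + 1) => (IntermediateField.AdjoinSimple.gen K x) ^ (i : ℕ)) =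
      fun i : Fin (l + 1) => x ^ (i : ℕ) := by
    funext i
    simp
  rw [h2]
  exact h1

/-- The family `x ^ i * u j` is `K`-linearly independent when `u` is `K(x)`-linearly
independent and `x` is transcendental. -/
theorem linearIndependent_pow_mul {x : F} (hx : Transcendental K x) {r : ℕ}
    (u : Fin r → F) (hu : LinearIndependent K⟮x⟯ u) (l : ℕ) :
    LinearIndependent K (fun p : Fin (l + 1) × Fin r => x ^ (p.1 : ℕ) * u p.2) := by
  have h := linearIndependent_smul (linearIndependent_gen_pow hx l) hu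
  have h2 : (fun p : Fin (l + 1) × Fin r =>
      (IntermediateField.AdjoinSimple.gen K x) ^ (p.1 : ℕ) • u p.2) =
      fun p : Fin (l + 1) × Fin r => x ^ (p.1 : ℕ) * u p.2 := by
    funext p
    rw [IntermediateField.smul_def]
    simp
  rw [h2] at h
  exact h

/-- The degree is additive, hence compatible with natural multiples. -/
theorem deg_nsmul (l : ℕ) (B : X →₀ ℤ) : deg (l • B) = l * deg B := by
  induction l with
  | zero => simp [deg_zero]
  | succ n ih =>
    rw [succ_nsmul, deg_add, ih]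
    push_cast
    ring

end Step2

/-- A non-constant function has a pole. -/
theorem deg_poleDiv_pos {x : F} (hx : ∀ c : K, x ≠ algebraMap K F c) : 0 < deg (C.poleDiv x) := by
  classical
  have hx0 : x ≠ 0 := by
    intro h
    exact hx 0 (by simp [h])
  have hpole : ∃ p, C.ord p x < 0 := by
    by_contra h
    obtain ⟨c, hc⟩ := C.const_of_nonneg hx0 (fun p => not_lt.mp fun hp => h ⟨p, hp⟩)
    exact hx c hc
  obtain ⟨p, hp⟩ := hpole
  have h1 : Finsupp.single p (C.poleDiv x p) ≤ C.poleDiv x := by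
    intro q
    by_cases hq : p = q
    · subst hq
      simp
    · rw [Finsupp.single_apply, if_neg hq]
      exact C.poleDiv_nonneg x q
  have h2 := deg_le_deg h1
  rw [deg_single] at h2
  have h3 : 0 < C.poleDiv x p := by
    rw [C.poleDiv_apply hx0]
    omega
  omega

/-- Key estimate behind Step 2 and Riemann's inequality: if `u 1, …, u r` are linearly
independent over `K(x)` then for a suitable effective divisor `C₀` we have
`(l + 1) * r ≤ ℓ(l (x)_∞ + C₀)` for all `l`. -/
theorem exists_le_finrank_L_smul_poleDiv {x : F} (hx : ∀ c : K, x ≠ algebraMap K F c) {r : ℕ}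
    (u : Fin r → F) (hu : LinearIndependent K⟮x⟯ u) :
    ∃ C₀ : X →₀ ℤ, 0 ≤ C₀ ∧ ∀ l : ℕ,
      (l + 1) * r ≤ Module.finrank K (C.L (l • C.poleDiv x + C₀)) := by
  have hx0 : x ≠ 0 := by
    intro h
    exact hx 0 (by simp [h])
  have hu0 : ∀ j, u j ≠ 0 := fun j => hu.ne_zero j
  have htr : Transcendental K x := C.transcendental_of_nonconst hx
  refine ⟨∑ j, C.poleDiv (u j), Finset.sum_nonneg fun j _ => C.poleDiv_nonneg (u j), ?_⟩
  intro l
  have hmem : ∀ p : Fin (l + 1) × Fin r,
      x ^ (p.1 : ℕ) * u p.2 ∈ C.L (l • C.poleDiv x + ∑ j, C.poleDiv (u j)) := by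
    rintro ⟨i, j⟩
    rw [mem_L]
    right
    intro p
    have hxi : x ^ (i : ℕ) ≠ 0 := pow_ne_zero _ hx0
    rw [C.ord_mul p hxi (hu0 j), C.ord_pow p hx0]
    have hB : C.poleDiv x p = max (-C.ord p x) 0 := C.poleDiv_apply hx0 p
    have hCj : C.poleDiv (u j) p ≤ (∑ j, C.poleDiv (u j)) p := by
      rw [Finsupp.finsetSum_apply]
      exact Finset.single_le_sum (f := fun j => C.poleDiv (u j) p)
        (fun k _ => C.poleDiv_nonneg (u k) p) (Finset.mem_univ j)
    have hj : C.poleDiv (u j) p = max (-C.ord p (u j)) 0 := C.poleDiv_apply (hu0 j) p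
    rw [Finsupp.add_apply, Finsupp.smul_apply]
    have hil : ((i : ℕ) : ℤ) ≤ (l : ℤ) := by
      have := i.is_lt
      omega
    have hi0 : (0 : ℤ) ≤ ((i : ℕ) : ℤ) := Int.natCast_nonneg _
    have hB0 : 0 ≤ C.poleDiv x p := by rw [hB]; exact le_max_right _ _
    have hB1 : -C.ord p x ≤ C.poleDiv x p := by rw [hB]; exact le_max_left _ _
    have hj1 : -C.ord p (u j) ≤ C.poleDiv (u j) p := by rw [hj]; exact le_max_left _ _
    have e1 : ((i : ℕ) : ℤ) * (-C.ord p x) ≤ ((i : ℕ) : ℤ) * C.poleDiv x p :=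
      mul_le_mul_of_nonneg_left hB1 hi0
    have e2 : ((i : ℕ) : ℤ) * C.poleDiv x p ≤ (l : ℤ) * C.poleDiv x p :=
      mul_le_mul_of_nonneg_right hil hB0
    have e3 : l • C.poleDiv x p = (l : ℤ) * C.poleDiv x p := by simp
    rw [e3]
    linarith
  have hli := Step2.linearIndependent_pow_mul htr u hu l
  have hli' : LinearIndependent K
      (fun p : Fin (l + 1) × Fin r =>
        (⟨x ^ (p.1 : ℕ) * u p.2, hmem p⟩ : C.L (l • C.poleDiv x + ∑ j, C.poleDiv (u j)))) :=
    LinearIndependent.of_comp (C.L (l • C.poleDiv x + ∑ j, C.poleDiv (u j))).subtype hli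
  have hfin := C.finite_L (l • C.poleDiv x + ∑ j, C.poleDiv (u j))
  have hcard := hli'.fintype_card_le_finrank
  simpa using hcard

/-- Step 2, main form: the number of `K(x)`-linearly independent elements is at most the degree
of the pole divisor of `x`. -/
theorem card_le_deg_poleDiv_of_linearIndependent {x : F} (hx : ∀ c : K, x ≠ algebraMap K F c)
    {r : ℕ} (u : Fin r → F) (hu : LinearIndependent K⟮x⟯ u) : (r : ℤ) ≤ deg (C.poleDiv x) := by
  obtain ⟨C₀, hC₀, h⟩ := C.exists_le_finrank_L_smul_poleDiv hx u hu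
  have hB0 : 0 ≤ C.poleDiv x := C.poleDiv_nonneg x
  have hdegB : 0 < deg (C.poleDiv x) := C.deg_poleDiv_pos hx
  obtain ⟨m, hm⟩ : ∃ m : ℕ, deg C₀ ≤ (m : ℤ) := ⟨(deg C₀).toNat, Int.self_le_toNat _⟩
  by_contra hcon
  have h4 : deg (C.poleDiv x) + 1 ≤ (r : ℤ) := not_le.mp hcon
  have h1 := h m
  have hnn : (0 : X →₀ ℤ) ≤ m • C.poleDiv x + C₀ := add_nonneg (nsmul_nonneg hB0 _) hC₀
  have h2 := C.finrank_L_le hnn
  rw [C.finrank_L_zero, deg_add, Step2.deg_nsmul, deg_zero] at h2
  have h3 : (((m + 1) * r : ℕ) : ℤ) ≤ (Module.finrank K (C.L (m • C.poleDiv x + C₀)) : ℤ) := by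
    exact_mod_cast h1
  push_cast at h3 h2
  have h7 : (0 : ℤ) ≤ (m : ℤ) := Int.natCast_nonneg _
  have h5 : ((m : ℤ) + 1) * (deg (C.poleDiv x) + 1) ≤ ((m : ℤ) + 1) * (r : ℤ) :=
    mul_le_mul_of_nonneg_left h4 (by linarith)
  linarith

namespace Step2

/-- The rank of `F` over `K(x)` is bounded by the degree of the pole divisor of `x`. -/
theorem rank_adjoin_le {x : F} (hx : ∀ c : K, x ≠ algebraMap K F c) :
    Module.rank K⟮x⟯ F ≤ ((deg (C.poleDiv x)).toNat : Cardinal) := by
  apply rank_le
  intro s hs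
  have hli : LinearIndependent K⟮x⟯ (fun i : Fin s.card => ((s.equivFin.symm i : s) : F)) :=
    hs.comp _ s.equivFin.symm.injective
  have := C.card_le_deg_poleDiv_of_linearIndependent hx _ hli
  omega

end Step2

/-- Step 2: `F` is a finite extension of `K(x)` ... -/
theorem finite_adjoin (C : PreCurve K F X) {x : F} (hx : ∀ c : K, x ≠ algebraMap K F c) :
    Module.Finite K⟮x⟯ F :=
  Module.rank_lt_aleph0_iff.mp
    (lt_of_le_of_lt (Step2.rank_adjoin_le C hx) Cardinal.natCast_lt_aleph0)

/-- ... of degree at most the degree of the pole divisor of `x`. -/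
theorem finrank_le_deg_poleDiv {x : F} (hx : ∀ c : K, x ≠ algebraMap K F c) :
    (Module.finrank K⟮x⟯ F : ℤ) ≤ deg (C.poleDiv x) := by
  have h1 := Module.finrank_le_of_rank_le (Step2.rank_adjoin_le C hx)
  have h2 := C.deg_poleDiv_pos hx
  omega

end PreCurve

end Fermat.Agent.RRL
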