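import Fermat.Agent.RR.Approx
import Fermat.Agent.RR.Step2

/-!
# The degree theorem: principal divisors have degree zero
-/

set_option autoImplicit false

open scoped IntermediateField

namespace Fermat.Agent.RRL

namespace Curve

variable {K F X : Type*} [Field K] [Field F] [Algebra K F] (C : Curve K F X)

/-- A finite sum with a unique term of minimal order at `p` is nonzero. -/
theorem sum_ne_zero_of_unique_min {ι : Type*} (p : X) (T : Finset ι) (u : ι → F) (i₀ : ι)
    (hi₀ : i₀ ∈ T) (h0 : u i₀ ≠ 0)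
    (h : ∀ i ∈ T, i ≠ i₀ → u i = 0 ∨ C.ord p (u i₀) < C.ord p (u i)) :
    ∑ i ∈ T, u i ≠ 0 := by
  classical
  rw [← Finset.add_sum_erase T u hi₀]
  have hR : ∑ i ∈ T.erase i₀, u i ∈ C.ball p (C.ord p (u i₀) + 1) := by
    refine Submodule.sum_mem _ fun i hi => ?_
    rcases h i (Finset.mem_of_mem_erase hi) (Finset.ne_of_mem_erase hi) with h1 | h1
    · exact Or.inl h1
    · exact Or.inr (by omega)
  by_cases hR0 : ∑ i ∈ T.erase i₀, u i = 0
  · rw [hR0, add_zero]
    exact h0
  · have hR' := hR.resolve_left hR0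
    exact C.add_ne_zero_of_ord_lt p h0 hR0 (by omega)

/-- Polynomials in a function without pole at `p` have no pole at `p`. -/
theorem aeval_mem_ball_zero {x : F} (p : X) (hx0 : x ≠ 0) (hp : 0 ≤ C.ord p x)
    (f : Polynomial K) : Polynomial.aeval x f ∈ C.ball p 0 := by
  rw [Polynomial.aeval_eq_sum_range]
  refine Submodule.sum_mem _ fun i _ => Submodule.smul_mem _ _ ?_
  refine Or.inr ?_
  rw [C.ord_pow p hx0]
  exact mul_nonneg (Int.natCast_nonneg i) hp

/-- The order of a nonzero polynomial in `x` at a zero of `x` is a multiple of the order of `x`,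
the multiplier being independent of the point. -/
theorem ord_aeval {x : F} (hx : ∀ c : K, x ≠ algebraMap K F c) {f : Polynomial K} (hf : f ≠ 0) :
    Polynomial.aeval x f ≠ 0 ∧ ∃ m : ℕ, ∀ p : X, 0 < C.ord p x →
      C.ord p (Polynomial.aeval x f) = m * C.ord p x := by
  have htr := C.transcendental_of_nonconst hx
  have hx0 : x ≠ 0 := fun h => hx 0 (by simpa using h)
  have hne : ∀ g : Polynomial K, g ≠ 0 → Polynomial.aeval x g ≠ 0 :=
    fun g hg h => hg ((transcendental_iff.mp htr) g h)
  refine ⟨hne f hf, ?_⟩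
  obtain ⟨q, hq, hnd⟩ := Polynomial.exists_eq_pow_rootMultiplicity_mul_and_not_dvd f hf 0
  refine ⟨f.rootMultiplicity 0, fun p hp => ?_⟩
  have hq0 : q ≠ 0 := by
    rintro rfl
    rw [mul_zero] at hq
    exact hf hq
  have hc : q.coeff 0 ≠ 0 := by
    intro h
    apply hnd
    rw [Polynomial.C_0, sub_zero]
    exact Polynomial.X_dvd_iff.mpr h
  have hsplit : Polynomial.aeval x q
      = algebraMap K F (q.coeff 0) + x * Polynomial.aeval x q.divX := by
    conv_lhs => rw [← Polynomial.divX_mul_X_add q]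
    rw [map_add, map_mul, Polynomial.aeval_X, Polynomial.aeval_C]
    ring
  have hcF : algebraMap K F (q.coeff 0) ≠ 0 := by simpa using hc
  have hordq : C.ord p (Polynomial.aeval x q) = 0 := by
    rw [hsplit]
    by_cases hd : Polynomial.aeval x q.divX = 0
    · rw [hd, mul_zero, add_zero]
      exact C.ord_algebraMap p hc
    · have hmem := C.aeval_mem_ball_zero p hx0 hp.le q.divX
      have hd' : 0 ≤ C.ord p (Polynomial.aeval x q.divX) := hmem.resolve_left hd
      have hR0 : x * Polynomial.aeval x q.divX ≠ 0 := mul_ne_zero hx0 hd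
      have hlt : C.ord p (algebraMap K F (q.coeff 0))
          < C.ord p (x * Polynomial.aeval x q.divX) := by
        rw [C.ord_algebraMap p hc, C.ord_mul p hx0 hd]
        omega
      rw [C.ord_add_eq_of_lt p hcF hR0 hlt]
      exact C.ord_algebraMap p hc
  have hfx : Polynomial.aeval x f = x ^ f.rootMultiplicity 0 * Polynomial.aeval x q := by
    conv_lhs => rw [hq]
    rw [map_mul, map_pow, Polynomial.C_0, sub_zero, Polynomial.aeval_X]
  rw [hfx, C.ord_mul p (pow_ne_zero _ hx0) (hne q hq0), hordq, add_zero, C.ord_pow p hx0]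

/-- The order of a nonzero element of `K(x)` at a zero of `x` is a multiple of the order of
`x`, the multiplier being independent of the point. -/
theorem exists_ord_eq_mul {x : F} (hx : ∀ c : K, x ≠ algebraMap K F c) (φ : K⟮x⟯)
    (hφ : φ ≠ 0) :
    ∃ m : ℤ, ∀ p : X, 0 < C.ord p x → C.ord p (φ : F) = m * C.ord p x := by
  obtain ⟨r, s, hrs⟩ := (IntermediateField.mem_adjoin_simple_iff K (φ : F)).mp φ.2
  have hφF : (φ : F) ≠ 0 := fun h => hφ (Subtype.ext h)
  have hr : r ≠ 0 := by
    rintro rfl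
    rw [map_zero, zero_div] at hrs
    exact hφF hrs
  have hs : s ≠ 0 := by
    rintro rfl
    rw [map_zero, div_zero] at hrs
    exact hφF hrs
  obtain ⟨hr0, mr, hmr⟩ := C.ord_aeval hx hr
  obtain ⟨hs0, ms, hms⟩ := C.ord_aeval hx hs
  refine ⟨(mr : ℤ) - ms, fun p hp => ?_⟩
  rw [hrs, C.ord_div p hr0 hs0, hmr p hp, hms p hp]
  ring

/-- "Step 1": the zeros of a non-constant function, counted with multiplicity, number at most
`[F : K(x)]`. -/
theorem deg_zeroDiv_le {x : F} (hx : ∀ c : K, x ≠ algebraMap K F c) :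
    PreCurve.deg (C.zeroDiv x) ≤ (Module.finrank K⟮x⟯ F : ℤ) := by
  classical
  have hx0 : x ≠ 0 := fun h => hx 0 (by simpa using h)
  have hfin := C.toPreCurve.finite_adjoin hx
  set S : Finset X := (C.zeroDiv x).support with hSdef
  have hS : ∀ p, p ∈ S ↔ 0 < C.ord p x := by
    intro p
    rw [hSdef, Finsupp.mem_support_iff, C.zeroDiv_apply hx0]
    constructor
    · intro h
      by_contra h'
      exact h (max_eq_right (by omega))
    · intro h h'
      have := le_max_left (C.ord p x) 0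
      omega
  let e : S → ℕ := fun p => (C.ord (p : X) x).toNat
  have hb : ∀ i : (Σ p : S, Fin (e p)), ∃ b : F, ∀ q ∈ S, b - 0 ≠ 0 ∧
      C.ord q (b - 0) = if q = (i.1 : X) then ((i.2 : ℕ) : ℤ) else C.ord q x :=
    fun i => C.exists_approx S (fun _ => 0) _
  choose b hb using hb
  have hb0 : ∀ i, b i ≠ 0 := fun i => by
    have := (hb i (i.1 : X) i.1.2).1
    rwa [sub_zero] at this
  have hbord : ∀ i, ∀ q ∈ S, C.ord q (b i) = if q = (i.1 : X) then ((i.2 : ℕ) : ℤ) else C.ord q x :=
    fun i q hq => by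
      have := (hb i q hq).2
      rwa [sub_zero] at this
  have hli : LinearIndependent K⟮x⟯ b := by
    rw [Fintype.linearIndependent_iff]
    intro g hg
    by_contra hne
    push Not at hne
    obtain ⟨j, hj⟩ := hne
    have hm : ∀ i, ∃ m : ℤ, g i ≠ 0 → ∀ p : X, 0 < C.ord p x →
        C.ord p ((g i : K⟮x⟯) : F) = m * C.ord p x := by
      intro i
      by_cases hgi : g i = 0
      · exact ⟨0, fun h => absurd hgi h⟩
      · obtain ⟨m, hm⟩ := C.exists_ord_eq_mul hx (g i) hgi
        exact ⟨m, fun _ => hm⟩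
    choose m hm using hm
    obtain ⟨i₀, hi₀T, hi₀⟩ := Finset.exists_min_image
      (Finset.univ.filter fun i => g i ≠ 0)
      (fun i => toLex (m i, ((i.2 : ℕ))))
      ⟨j, by simp [hj]⟩
    have hgi₀ : g i₀ ≠ 0 := (Finset.mem_filter.mp hi₀T).2
    have hp₀ : 0 < C.ord (i₀.1 : X) x := (hS _).mp i₀.1.2
    have ha₀ : ((i₀.2 : ℕ) : ℤ) < C.ord (i₀.1 : X) x := by
      have := i₀.2.2
      show ((i₀.2 : ℕ) : ℤ) < C.ord (i₀.1 : X) x
      have h2 : ((i₀.2 : ℕ)) < (C.ord (i₀.1 : X) x).toNat := this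
      omega
    have hgF : ∀ i, g i ≠ 0 → ((g i : K⟮x⟯) : F) ≠ 0 := fun i h h' => h (Subtype.ext h')
    have hterm : ∀ i, g i • b i = ((g i : K⟮x⟯) : F) * b i := fun i => rfl
    have hord₀ : C.ord (i₀.1 : X) (g i₀ • b i₀)
        = m i₀ * C.ord (i₀.1 : X) x + ((i₀.2 : ℕ) : ℤ) := by
      rw [hterm, C.ord_mul _ (hgF _ hgi₀) (hb0 _), hm i₀ hgi₀ _ hp₀, hbord i₀ _ i₀.1.2,
        if_pos rfl]
    refine C.sum_ne_zero_of_unique_min (i₀.1 : X) Finset.univ (fun i => g i • b i) i₀
      (Finset.mem_univ _) ?_ ?_ hg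
    · show g i₀ • b i₀ ≠ 0
      rw [hterm]
      exact mul_ne_zero (hgF _ hgi₀) (hb0 _)
    · intro i _ hii₀
      by_cases hgi : g i = 0
      · left
        show g i • b i = 0
        rw [hgi, zero_smul]
      right
      show C.ord (i₀.1 : X) (g i₀ • b i₀) < C.ord (i₀.1 : X) (g i • b i)
      have hkey := hi₀ i (Finset.mem_filter.mpr ⟨Finset.mem_univ _, hgi⟩)
      rw [Prod.Lex.toLex_le_toLex] at hkey
      rw [hord₀, hterm, C.ord_mul _ (hgF _ hgi) (hb0 _), hm i hgi _ hp₀, hbord i _ i₀.1.2]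
      have hE := hp₀
      set E : ℤ := C.ord (i₀.1 : X) x with hEdef
      by_cases hq : (i₀.1 : X) = (i.1 : X)
      · rw [if_pos hq]
        obtain ⟨p₀, a₀⟩ := i₀
        obtain ⟨q, a'⟩ := i
        have hq' : p₀ = q := Subtype.ext hq
        subst hq'
        have hne' : a' ≠ a₀ := fun h => hii₀ (by rw [h])
        have hne'' : (a' : ℕ) ≠ (a₀ : ℕ) := fun h => hne' (Fin.ext h)
        rcases hkey with hlt | ⟨heq, hle⟩
        · have h1 : (m ⟨p₀, a₀⟩ + 1) * E ≤ m ⟨p₀, a'⟩ * E :=
            mul_le_mul_of_nonneg_right (by simpa using hlt) hE.le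
          have h2 : (0 : ℤ) ≤ ((a' : ℕ) : ℤ) := Int.natCast_nonneg _
          simp only at ha₀ h1 ⊢
          nlinarith
        · simp only at heq hle ha₀ ⊢
          rw [heq]
          have : (a₀ : ℕ) < (a' : ℕ) := lt_of_le_of_ne hle (Ne.symm hne'')
          omega
      · rw [if_neg hq]
        have hmle : m i₀ ≤ m i := by
          rcases hkey with hlt | ⟨heq, _⟩
          · exact le_of_lt hlt
          · exact le_of_eq heq
        have h1 : m i₀ * E ≤ m i * E := mul_le_mul_of_nonneg_right hmle hE.le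
        omega
  have hcard := hli.fintype_card_le_finrank
  have hdeg : PreCurve.deg (C.zeroDiv x) = ((Fintype.card (Σ p : S, Fin (e p)) : ℕ) : ℤ) := by
    rw [Fintype.card_sigma]
    simp only [Fintype.card_fin]
    rw [PreCurve.deg, Finsupp.sum, Nat.cast_sum, ← hSdef, ← Finset.sum_coe_sort S]
    refine Finset.sum_congr rfl fun p _ => ?_
    have hp : 0 < C.ord (p : X) x := (hS _).mp p.2
    rw [C.zeroDiv_apply hx0]
    show max (C.ord (p : X) x) 0 = (((C.ord (p : X) x).toNat : ℕ) : ℤ)
    rw [max_eq_left hp.le, Int.toNat_of_nonneg hp.le]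
  rw [hdeg]
  exact_mod_cast hcard

theorem adjoin_inv_eq (x : F) : K⟮x⁻¹⟯ = K⟮x⟯ := by
  apply le_antisymm
  · rw [IntermediateField.adjoin_simple_le_iff]
    exact inv_mem (IntermediateField.mem_adjoin_simple_self K x)
  · rw [IntermediateField.adjoin_simple_le_iff]
    have := inv_mem (IntermediateField.mem_adjoin_simple_self K x⁻¹)
    rwa [inv_inv] at this

theorem finrank_eq_deg_poleDiv {x : F} (hx : ∀ c : K, x ≠ algebraMap K F c) :
    (Module.finrank K⟮x⟯ F : ℤ) = PreCurve.deg (C.poleDiv x) := by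
  apply le_antisymm (C.toPreCurve.finrank_le_deg_poleDiv hx)
  have hx0 : x ≠ 0 := fun h => hx 0 (by simpa using h)
  have hxinv : ∀ c : K, x⁻¹ ≠ algebraMap K F c := by
    intro c h
    apply hx c⁻¹
    rw [map_inv₀, ← h, inv_inv]
  have h1 := C.deg_zeroDiv_le hxinv
  have h2 : C.zeroDiv x⁻¹ = C.poleDiv x := by
    have := C.toPreCurve.poleDiv_inv (inv_ne_zero hx0)
    rw [inv_inv] at this
    exact this.symm
  rw [h2, adjoin_inv_eq] at h1
  exact h1

/-- Principal divisors have degree zero. -/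
theorem deg_div {x : F} (hx : x ≠ 0) : PreCurve.deg (C.div x) = 0 := by
  by_cases hc : ∃ c : K, x = algebraMap K F c
  · obtain ⟨c, rfl⟩ := hc
    rw [C.toPreCurve.div_algebraMap, PreCurve.deg_zero]
  · push Not at hc
    have hxinv : ∀ c : K, x⁻¹ ≠ algebraMap K F c := by
      intro c h
      apply hc c⁻¹
      rw [map_inv₀, ← h, inv_inv]
    have h1 := C.finrank_eq_deg_poleDiv hc
    have h2 := C.finrank_eq_deg_poleDiv hxinv
    rw [C.toPreCurve.poleDiv_inv hx, adjoin_inv_eq] at h2
    rw [C.toPreCurve.div_eq_zeroDiv_sub_poleDiv, PreCurve.deg_sub]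
    omega

theorem L_eq_bot_of_deg_neg {D : X →₀ ℤ} (h : PreCurve.deg D < 0) : C.L D = ⊥ := by
  rw [eq_bot_iff]
  intro x hx
  rw [Submodule.mem_bot]
  by_contra hx0
  have hx' := hx.resolve_left hx0
  have hle : -D ≤ C.div x := by
    intro p
    rw [C.toPreCurve.div_apply hx0]
    simpa using hx' p
  have := PreCurve.deg_le_deg hle
  rw [C.deg_div hx0, PreCurve.deg_neg] at this
  omega

theorem finrank_L_add_div_le (D : X →₀ ℤ) {z : F} (hz : z ≠ 0) :
    Module.finrank K (C.L (D + C.div z)) ≤ Module.finrank K (C.L D) := by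
  have hfinL := C.toPreCurve.finite_L D
  let f : C.L (D + C.div z) →ₗ[K] C.L D :=
    { toFun := fun u => ⟨(u : F) * z, by
        rcases u.2 with h | h
        · left
          rw [h, zero_mul]
        · by_cases hu : (u : F) = 0
          · left
            rw [hu, zero_mul]
          · right
            intro p
            have := h p
            rw [Finsupp.add_apply, C.toPreCurve.div_apply hz] at this
            rw [C.ord_mul p hu hz]
            omega⟩
      map_add' := fun u v => Subtype.ext (by simp [add_mul])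
      map_smul' := fun c u => Subtype.ext (by simp) }
  refine LinearMap.finrank_le_finrank_of_injective (f := f) ?_
  intro u v huv
  have : (u : F) * z = (v : F) * z := congrArg Subtype.val huv
  exact Subtype.ext (mul_right_cancel₀ hz this)

theorem finrank_L_add_div (D : X →₀ ℤ) {z : F} (hz : z ≠ 0) :
    Module.finrank K (C.L (D + C.div z)) = Module.finrank K (C.L D) := by
  apply le_antisymm (C.finrank_L_add_div_le D hz)
  have h := C.finrank_L_add_div_le (D + C.div z) (inv_ne_zero hz)
  rw [C.toPreCurve.div_inv hz, add_neg_cancel_right] at h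
  exact h

end Curve

end Fermat.Agent.RRL
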