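import Fermat.Agent.RR.Degree

/-!
# Convenience forms of the degree theorem (exports for other packages)
-/

set_option autoImplicit false

open scoped IntermediateField

namespace Fermat.Agent.RRL

namespace Curve

variable {K F X : Type*} [Field K] [Field F] [Algebra K F] (C : Curve K F X)

/-- A nonzero function has as many zeros as poles. -/
theorem finsum_ord_eq_zero {x : F} (hx : x ≠ 0) : ∑ᶠ p : X, C.ord p x = 0 := by
  have h := C.deg_div hx
  rw [PreCurve.deg_eq_finsum] at h
  rw [← h]
  exact finsum_congr fun p => (C.toPreCurve.div_apply hx p).symm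

/-- `F` is a finite extension of `K(x)` for non-constant `x`. -/
theorem finite_adjoin_of_nonconst (C : Curve K F X) {x : F}
    (hx : ∀ c : K, x ≠ algebraMap K F c) : Module.Finite K⟮x⟯ F :=
  PreCurve.finite_adjoin C.toPreCurve hx

/-- The number of poles of a non-constant function is the degree `[F : K(x)]`. -/
theorem finsum_max_neg_ord_eq_finrank {x : F} (hx : ∀ c : K, x ≠ algebraMap K F c) :
    ∑ᶠ p : X, max (-C.ord p x) 0 = (Module.finrank K⟮x⟯ F : ℤ) := by
  have hx0 : x ≠ 0 := fun h => hx 0 (by simpa using h)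
  rw [C.finrank_eq_deg_poleDiv hx, C.toPreCurve.deg_poleDiv_eq_finsum hx0]

/-- The number of zeros of a non-constant function is the degree `[F : K(x)]`. -/
theorem finsum_max_ord_eq_finrank {x : F} (hx : ∀ c : K, x ≠ algebraMap K F c) :
    ∑ᶠ p : X, max (C.ord p x) 0 = (Module.finrank K⟮x⟯ F : ℤ) := by
  have hx0 : x ≠ 0 := fun h => hx 0 (by simpa using h)
  have h1 := C.deg_div hx0
  rw [C.toPreCurve.div_eq_zeroDiv_sub_poleDiv, PreCurve.deg_sub] at h1
  rw [C.finrank_eq_deg_poleDiv hx, ← C.toPreCurve.deg_zeroDiv_eq_finsum hx0]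
  omega

end Curve

end Fermat.Agent.RRL
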